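/-
P7 / S13, KW-lite, part 2 (number fields): an abelian extension `F / ℚ` of degree prime to `p` which
is unramified outside `p` is cyclic (indeed totally and tamely ramified at `p`).

Proof: the inertia field of a prime above `p` is unramified everywhere, hence equal to `ℚ`
(Minkowski, Mathlib `NumberField.exists_not_isUnramifiedIn`), so the Galois group is an inertia
group, which is cyclic because the ramification is tame (`TameInertia.lean`).
-/
import Fermat.Agent.Lib.S13.TameInertia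
import Fermat.Agent.Lib.CFT.Global.UnramifiedClassical

set_option autoImplicit false
set_option linter.unusedSectionVars false

open NumberField Ideal

namespace Fermat.Agent.S13Lib

open Fermat.Agent.CFT.Global

variable {F : Type} [Field F] [NumberField F] [IsGalois ℚ F]

/-- relative ramification index over the fixed field of a subgroup `I` = order of the inertia group
in `I` -/
lemma ramificationIdx_fixedField (I : Subgroup Gal(F/ℚ)) (Q : Ideal (𝓞 F)) [Q.IsPrime]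
    (hQ : Q ≠ ⊥) :
    Q.ramificationIdx (𝓞 (FixedPoints.intermediateField I : IntermediateField ℚ F)) =
      Nat.card (Q.inertia I) := by
  let E : IntermediateField ℚ F := FixedPoints.intermediateField I
  have h1 : IsGaloisGroup I E F := IsGaloisGroup.subgroup Gal(F/ℚ) ℚ F I
  have h6 : IsGaloisGroup I (𝓞 E) (𝓞 F) := IsGaloisGroup.of_isFractionRing I (𝓞 E) (𝓞 F) E F
  have hlo : Q.LiesOver (Q.under (𝓞 E)) := ⟨rfl⟩
  have hqne : Q.under (𝓞 E) ≠ ⊥ := Ideal.under_ne_bot (𝓞 E) hQ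
  have hqmax : (Q.under (𝓞 E)).IsMaximal := Ring.DimensionLEOne.maximalOfPrime hqne inferInstance
  have hfin : Finite (𝓞 E ⧸ Q.under (𝓞 E)) := Ring.HasFiniteQuotients.finiteQuotient hqne
  have hfin2 : Finite (Q.under (𝓞 E)).ResidueField := inferInstance
  rw [Ideal.card_inertia_eq_ramificationIdxIn (G := I) (Q.under (𝓞 E)) Q,
    Ideal.ramificationIdxIn_eq_ramificationIdx (Q.under (𝓞 E)) Q I]

open Pointwise in
/-- in an abelian extension, conjugate primes have the same inertia group -/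
lemma inertia_smul_of_comm (hcomm : ∀ σ τ : Gal(F/ℚ), σ * τ = τ * σ) (σ : Gal(F/ℚ))
    (Q : Ideal (𝓞 F)) : (σ • Q).inertia Gal(F/ℚ) = Q.inertia Gal(F/ℚ) := by
  ext τ
  simp only [AddSubgroup.mem_inertia, Submodule.mem_toAddSubgroup]
  constructor
  · intro h x
    have h1 := h (σ • x)
    rw [← mul_smul, hcomm τ σ, mul_smul, ← smul_sub, Ideal.smul_mem_pointwise_smul_iff] at h1
    exact h1
  · intro h x
    have h1 := h (σ⁻¹ • x)
    rw [← Ideal.smul_mem_pointwise_smul_iff (a := σ), smul_sub, smul_inv_smul, ← mul_smul,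
      ← hcomm τ σ, mul_smul, smul_inv_smul] at h1
    exact h1

/-- every nonzero prime of `𝓞 F` contains a rational prime -/
lemma exists_prime_natCast_mem (Q : Ideal (𝓞 F)) [hQ : Q.IsPrime] (hQ0 : Q ≠ ⊥) :
    ∃ q : ℕ, q.Prime ∧ ((q : ℕ) : 𝓞 F) ∈ Q := by
  have hfin : Finite (𝓞 F ⧸ Q) := Ring.HasFiniteQuotients.finiteQuotient hQ0
  have hdom : IsDomain (𝓞 F ⧸ Q) := Ideal.Quotient.isDomain Q
  obtain ⟨q, hq⟩ := CharP.exists (𝓞 F ⧸ Q)
  refine ⟨q, ?_, ?_⟩
  · rcases CharP.char_is_prime_or_zero (𝓞 F ⧸ Q) q with h | h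
    · exact h
    · exact absurd h (CharP.char_ne_zero_of_finite (𝓞 F ⧸ Q) q)
  · rw [← Ideal.Quotient.eq_zero_iff_mem, map_natCast]
    exact CharP.cast_eq_zero _ q

/-- the inertia field of a prime above `p` in an abelian extension unramified outside `p` is
unramified everywhere: ramification indices of all its primes are `1` -/
lemma ramificationIdx_inertiaField_eq_one (p : ℕ) [hp : Fact p.Prime]
    (hcomm : ∀ σ τ : Gal(F/ℚ), σ * τ = τ * σ)
    (hunr : ∀ q : ℕ, [Fact q.Prime] → q ≠ p → UnramifiedAt q F)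
    (P₀ : Ideal (𝓞 F)) [P₀.IsPrime] (hpP₀ : ((p : ℕ) : 𝓞 F) ∈ P₀)
    (𝔮 : Ideal (𝓞 (FixedPoints.intermediateField (P₀.inertia Gal(F/ℚ)) : IntermediateField ℚ F)))
    [h𝔮 : 𝔮.IsPrime] (h𝔮0 : 𝔮 ≠ ⊥) : 𝔮.ramificationIdx ℤ = 1 := by
  have h𝔮max : 𝔮.IsMaximal := Ring.DimensionLEOne.maximalOfPrime h𝔮0 h𝔮
  -- a prime `Q` of `F` above `𝔮`
  obtain ⟨Q, hQmax, hQlo⟩ := Ideal.exists_maximal_ideal_liesOver_of_isIntegral (S := 𝓞 F) 𝔮
  have hQprime : Q.IsPrime := hQmax.isPrime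
  have hQ0 : Q ≠ ⊥ := Ideal.ne_bot_of_liesOver_of_ne_bot h𝔮0 Q
  obtain ⟨q, hq, hqmem⟩ := exists_prime_natCast_mem Q hQ0
  have : Fact q.Prime := ⟨hq⟩
  -- the tower formula
  have htower := Ideal.ramificationIdx_tower (R := ℤ) 𝔮 Q
  rw [← card_inertia_eq_ramificationIdx hqmem, ramificationIdx_fixedField _ Q hQ0] at htower
  have hsub : Nat.card (Q.inertia ↥(P₀.inertia Gal(F/ℚ))) =
      Nat.card ((Q.inertia Gal(F/ℚ)).subgroupOf (P₀.inertia Gal(F/ℚ))) := rfl
  rw [hsub] at htower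
  by_cases hqp : q = p
  · subst hqp
    -- `Q` is conjugate to `P₀`
    have := liesOver_span_natCast_of_mem hqmem
    have := liesOver_span_natCast_of_mem hpP₀
    have := (isMaximal_span_natCast_int q).isPrime
    obtain ⟨σ, hσ⟩ := Ideal.exists_smul_eq_of_isGaloisGroup (Ideal.span {((q : ℕ) : ℤ)}) P₀ Q
      Gal(F/ℚ)
    have h1 : Q.inertia Gal(F/ℚ) = P₀.inertia Gal(F/ℚ) := by
      rw [← hσ]
      exact inertia_smul_of_comm hcomm σ P₀
    rw [h1, Subgroup.subgroupOf_self, Subgroup.card_top] at htower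
    have hpos : 0 < Nat.card (P₀.inertia Gal(F/ℚ)) := Nat.card_pos
    have h2 : 𝔮.ramificationIdx ℤ * Nat.card (P₀.inertia Gal(F/ℚ)) =
        1 * Nat.card (P₀.inertia Gal(F/ℚ)) := by rw [← htower, one_mul]
    exact Nat.eq_of_mul_eq_mul_right hpos h2
  · have h1 := (unramifiedAt_iff_forall_inertia_eq_bot (q := q) (F := F)).1 (hunr q hqp) Q hqmem
    rw [h1] at htower
    have h2 : Nat.card (⊥ : Subgroup Gal(F/ℚ)) = 1 := Subgroup.card_bot
    rw [h2] at htower
    exact Nat.eq_one_of_mul_eq_one_right htower.symm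

omit [IsGalois ℚ F] in
lemma faithfulSMul_gal_ringOfIntegers : FaithfulSMul Gal(F/ℚ) (𝓞 F) := by
  refine ⟨fun {σ τ} h => ?_⟩
  apply AlgEquiv.ext
  intro y
  obtain ⟨a, b, hb, rfl⟩ := IsFractionRing.div_surjective (𝓞 F) y
  have ha := congrArg (algebraMap (𝓞 F) F) (h a)
  have hb' := congrArg (algebraMap (𝓞 F) F) (h b)
  rw [algebraMap.smul', algebraMap.smul'] at ha hb'
  rw [map_div₀, map_div₀]
  change (σ • (algebraMap (𝓞 F) F a)) / (σ • (algebraMap (𝓞 F) F b)) =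
    (τ • (algebraMap (𝓞 F) F a)) / (τ • (algebraMap (𝓞 F) F b))
  rw [ha, hb']

/-- **Abelian, unramified outside `p`, of degree prime to `p` ⇒ cyclic.** -/
theorem isCyclic_gal_of_comm_of_unramifiedOutside (p : ℕ) [hp : Fact p.Prime]
    (hcomm : ∀ σ τ : Gal(F/ℚ), σ * τ = τ * σ)
    (hunr : ∀ q : ℕ, [Fact q.Prime] → q ≠ p → UnramifiedAt q F)
    (hcop : Nat.Coprime p (Module.finrank ℚ F)) : IsCyclic Gal(F/ℚ) := by
  -- a prime above `p`
  have hmaxp := isMaximal_span_natCast_int p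
  obtain ⟨P₀, hP₀max, hP₀lo⟩ :=
    Ideal.exists_maximal_ideal_liesOver_of_isIntegral (S := 𝓞 F) (Ideal.span {((p : ℕ) : ℤ)})
  have hP₀prime : P₀.IsPrime := hP₀max.isPrime
  have hpP₀ : ((p : ℕ) : 𝓞 F) ∈ P₀ := by
    have h1 : ((p : ℕ) : ℤ) ∈ P₀.under ℤ := by
      rw [← hP₀lo.over]
      exact Ideal.subset_span rfl
    rw [Ideal.under_def, Ideal.mem_comap, map_natCast] at h1
    exact h1
  have hP₀ne : P₀ ≠ ⊥ := by
    intro h
    rw [h, Ideal.mem_bot] at hpP₀
    exact hp.out.ne_zero (by exact_mod_cast hpP₀)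
  -- the inertia field is `ℚ`
  have h1 : IsGaloisGroup (P₀.inertia Gal(F/ℚ))
      (FixedPoints.intermediateField (P₀.inertia Gal(F/ℚ)) : IntermediateField ℚ F) F :=
    IsGaloisGroup.subgroup Gal(F/ℚ) ℚ F (P₀.inertia Gal(F/ℚ))
  have hE : Module.finrank ℚ
      (FixedPoints.intermediateField (P₀.inertia Gal(F/ℚ)) : IntermediateField ℚ F) = 1 := by
    by_contra H
    obtain ⟨q, hq, hram⟩ := NumberField.exists_not_isUnramifiedIn
      (𝒪 := 𝓞 (FixedPoints.intermediateField (P₀.inertia Gal(F/ℚ)) : IntermediateField ℚ F)) H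
    apply hram
    rw [Algebra.isUnramifiedIn_iff_forall_of_isDedekindDomain]
    intro 𝔮 h𝔮max h𝔮lo
    have h𝔮prime : 𝔮.IsPrime := h𝔮max.isPrime
    have hq0 : (Ideal.span {((q : ℕ) : ℤ)}) ≠ ⊥ := by
      rw [Ne, Ideal.span_singleton_eq_bot]
      exact_mod_cast hq.ne_zero
    have h𝔮0 : 𝔮 ≠ ⊥ := Ideal.ne_bot_of_liesOver_of_ne_bot hq0 𝔮
    have hun : 𝔮.under ℤ ≠ ⊥ := by rw [← h𝔮lo.over]; exact hq0
    have hfin : Finite (ℤ ⧸ 𝔮.under ℤ) := Ring.HasFiniteQuotients.finiteQuotient hun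
    have hfin2 : Finite (𝔮.under ℤ).ResidueField := inferInstance
    rw [← Ideal.ramificationIdx_eq_one_iff]
    exact ramificationIdx_inertiaField_eq_one p hcomm hunr P₀ hpP₀ 𝔮 h𝔮0
  -- hence the inertia group is everything
  have hcard : Nat.card (P₀.inertia Gal(F/ℚ)) = Nat.card Gal(F/ℚ) := by
    rw [IsGaloisGroup.card_eq_finrank (P₀.inertia Gal(F/ℚ))
      (FixedPoints.intermediateField (P₀.inertia Gal(F/ℚ)) : IntermediateField ℚ F) F,
      IsGalois.card_aut_eq_finrank ℚ F,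
      ← Module.finrank_mul_finrank ℚ
        (FixedPoints.intermediateField (P₀.inertia Gal(F/ℚ)) : IntermediateField ℚ F) F, hE,
      one_mul]
  have htop : P₀.inertia Gal(F/ℚ) = ⊤ := (Subgroup.card_eq_iff_eq_top _).1 hcard
  -- tame inertia is cyclic
  have hcop' : Nat.Coprime p (Nat.card (P₀.inertia Gal(F/ℚ))) := by
    rw [hcard, IsGalois.card_aut_eq_finrank ℚ F]
    exact hcop
  have hfaith : FaithfulSMul Gal(F/ℚ) (𝓞 F) := faithfulSMul_gal_ringOfIntegers
  have hcyc : IsCyclic ↥(P₀.inertia Gal(F/ℚ)) :=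
    isCyclic_inertia_of_coprime (G := Gal(F/ℚ)) hP₀ne hpP₀ hcop'
  rw [htop] at hcyc
  exact isCyclic_of_surjective (Subgroup.topEquiv : (⊤ : Subgroup Gal(F/ℚ)) ≃* Gal(F/ℚ))
    Subgroup.topEquiv.surjective

end Fermat.Agent.S13Lib
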