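import Fermat.Agent.Lib.S13.AtP1

/-!
# S13, package (C), part P2 (local): the depth formula for the `p`-torsion in the kernel of
reduction

`W : y² = x³ + a x² + b x` integral for a `ℚ`-valued valuation `v` with `ord 2 = 0`, `ord p = 1`.
Assume the norm identity `∏_{T ∈ E[p]} x(Q + T) = c · x(pQ)` (for `Q` with `2Q ∉ E[p]`), with
`c` a unit, and that every nonzero `p`-torsion point lies in the kernel of reduction.  Then
`∑_{T ∈ E[p] ∖ 0} (- ord x(T)) = 2`.
-/

set_option autoImplicit false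
set_option linter.unusedSectionVars false
set_option linter.unusedVariables false

open WeierstrassCurve WeierstrassCurve.Affine

namespace Fermat.Agent.S13Lib

open Fermat.Agent.S05Lib

variable {K : Type*} [Field K] [DecidableEq K]

/-- the `x`-coordinate of a point (`0` at infinity) -/
def xc {W : WeierstrassCurve K} : W.toAffine.Point → K
  | .zero => 0
  | .some x _ _ => x

section

variable {v : QVal K} {W : WeierstrassCurve K} {a b : K}

@[simp] lemma xc_zero : xc (0 : W.toAffine.Point) = 0 := rfl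

@[simp] lemma xc_some {x y : K} (h : W.toAffine.Nonsingular x y) :
    xc (Point.some x y h) = x := rfl

lemma xi_eq_inv_xc (P : W.toAffine.Point) : xi P = (xc P)⁻¹ := by
  rcases P with _ | ⟨x, y, hxy⟩
  · show (0 : K) = (0 : K)⁻¹
    rw [inv_zero]
  · rfl

lemma xc_neg (hW : IsLeg W a b) (P : W.toAffine.Point) : xc (-P) = xc P := by
  rcases P with _ | ⟨x, y, hxy⟩
  · rfl
  · obtain ⟨h', e⟩ := hW.neg_some hxy
    rw [e]
    rfl

lemma ne_zero_of_xc_ne_zero {P : W.toAffine.Point} (h : xc P ≠ 0) : P ≠ 0 := by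
  rintro rfl
  exact h rfl

/-- `P` lies in `E_τ` as soon as `ord x(P) ≤ -τ` (and `x(P) ≠ 0`). -/
lemma inE_of_le {τ : ℚ} {P : W.toAffine.Point} (h : v.Le (xc P) (-τ)) : InE v τ P := by
  rcases P with _ | ⟨x, y, hxy⟩
  · trivial
  · exact h

lemma le_of_inE {τ : ℚ} {P : W.toAffine.Point} (h : InE v τ P) (hP : P ≠ 0) :
    v.Le (xc P) (-τ) := by
  rcases P with _ | ⟨x, y, hxy⟩
  · exact absurd rfl hP
  · exact h

/-- **exact depth of a sum**: if `ord x(P) = -s`, `ord x(Q) = -t` with `0 < s < t` then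
`ord x(P + Q) = -s`. -/
theorem is_xc_add (hW : IsLeg W a b) (ha : v.Ge a 0) (hb : v.Ge b 0) (h2 : v.Is (2 : K) 0)
    {s t : ℚ} (hs : 0 < s) (hst : s < t) {P Q : W.toAffine.Point}
    (hP : v.Is (xc P) (-s)) (hQ : v.Is (xc Q) (-t)) : v.Is (xc (P + Q)) (-s) := by
  have iP : InE v s P := inE_of_le hP.le
  have iQt : InE v t Q := inE_of_le hQ.le
  have iQ : InE v s Q := iQt.mono hst.le
  have iPQ : InE v s (P + Q) := (inE_add_sub hW ha hb h2 hs iP iQ).1
  have hne : P + Q ≠ 0 := by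
    intro h0
    have : P = -Q := eq_neg_of_add_eq_zero_left h0
    rw [this, xc_neg hW] at hP
    have := hP.unique hQ
    linarith
  have hle := le_of_inE iPQ hne
  refine ⟨hle.1, le_antisymm hle.2 ?_⟩
  by_contra hcon
  push Not at hcon
  -- `ord x(P+Q) < -s`
  set s' := -v.ord (xc (P + Q)) with hs'
  have hs's : s < s' := by rw [hs']; linarith
  set m := min s' t with hm
  have hms : s < m := lt_min hs's hst
  have hm0 : 0 < m := hs.trans hms
  have i1 : InE v m (P + Q) := by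
    apply inE_of_le
    exact ⟨hle.1, by rw [hs'] at hm; have := min_le_left s' t; rw [hs'] at this; linarith⟩
  have i2 : InE v m Q := iQt.mono (min_le_right _ _)
  have i3 : InE v m (P + Q - Q) := (inE_add_sub hW ha hb h2 hm0 i1 i2).2.1
  rw [add_sub_cancel_right] at i3
  have hP0 : P ≠ 0 := ne_zero_of_xc_ne_zero hP.1
  have := le_of_inE i3 hP0
  have h1 := this.2
  rw [hP.2] at h1
  linarith

/-- **deep multiples**: if `ord x(Q) = -t` with `t > 2 ord n` then `ord x(nQ) = -(t + 2 ord n)`. -/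
theorem is_xc_nsmul (hW : IsLeg W a b) (ha : v.Ge a 0) (hb : v.Ge b 0) (h2 : v.Is (2 : K) 0)
    {n : ℕ} {ν : ℚ} (hn : v.Is (n : K) ν) {t : ℚ} (ht0 : 0 < t) (ht : 2 * ν < t)
    {Q : W.toAffine.Point} (hQ : v.Is (xc Q) (-t)) : v.Is (xc (n • Q)) (-(t + 2 * ν)) := by
  have iQ : InE v t Q := inE_of_le hQ.le
  obtain ⟨_, g⟩ := xi_nsmul hW ha hb h2 ht0 iQ n
  have hxi : v.Is (xi Q) t := by
    rw [xi_eq_inv_xc]
    have := hQ.inv
    rwa [neg_neg] at this
  have h1 : v.Is ((n : K) ^ 2 * xi Q) (2 * ν + t) := (hn.sq).mul hxi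
  have h3 : v.Is (xi (n • Q)) (2 * ν + t) := by
    have : xi (n • Q) = (n : K) ^ 2 * xi Q + (xi (n • Q) - (n : K) ^ 2 * xi Q) := by ring
    rw [this]
    exact h1.add_gt (g.gt (by linarith))
  rw [xi_eq_inv_xc] at h3
  have := h3.inv
  rw [inv_inv] at this
  exact this.congr (by ring)

/-- points of arbitrary depth exist -/
theorem exists_deep_point (hW : IsLeg W a b) (ha : v.Ge a 0) (hb : v.Ge b 0)
    (h2 : v.Is (2 : K) 0) (hsq : ∀ z : K, ∃ y, y ^ 2 = z) {π : K} (hπ : v.Is π 1)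
    (m : ℕ) (hm : 0 < m) : ∃ Q : W.toAffine.Point, v.Is (xc Q) (-(m : ℚ)) := by
  set x := (π⁻¹) ^ m with hx
  have hxi : v.Is x (-(m : ℚ)) := by
    have := (hπ.inv).pow m
    exact this.congr (by ring)
  have hm' : (0 : ℚ) < m := by exact_mod_cast hm
  obtain ⟨y, hy⟩ := hsq (x ^ 3 + a * x ^ 2 + b * x)
  have hc : v.Is (x ^ 3 + a * x ^ 2 + b * x) (3 * (-(m : ℚ))) := by
    have h1 : v.Is (x ^ 3) (3 * (-(m : ℚ))) := by simpa using hxi.pow 3
    have h2' : v.Gt (a * x ^ 2) (3 * (-(m : ℚ))) := by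
      have := ha.mul (hxi.pow 2).ge
      exact this.gt (by push_cast; linarith)
    have h3 : v.Gt (b * x) (3 * (-(m : ℚ))) := by
      have := hb.mul hxi.ge
      exact this.gt (by linarith)
    exact (h1.add_gt h2').add_gt h3
  have hy0 : y ≠ 0 := by
    intro h0
    rw [h0] at hy
    apply hc.1
    rw [← hy]
    ring
  have hns : W.toAffine.Nonsingular x y := by
    rw [Affine.nonsingular_iff]
    refine ⟨(hW.equation_iff x y).mpr hy, Or.inr ?_⟩
    rw [hW.a₁, hW.a₃]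
    intro h0
    have : 2 * y = 0 := by linear_combination h0
    exact (mul_ne_zero h2.1 hy0) this
  exact ⟨Point.some x y hns, hxi⟩

/-- `ord` of a product of nonzero elements -/
lemma ord_prod {ι : Type*} (s : Finset ι) (f : ι → K) (hf : ∀ i ∈ s, f i ≠ 0) :
    v.ord (∏ i ∈ s, f i) = ∑ i ∈ s, v.ord (f i) := by
  classical
  induction s using Finset.induction_on with
  | empty => simp [v.ord_one]
  | insert i s his ih =>
    rw [Finset.prod_insert his, Finset.sum_insert his]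
    have h1 : f i ≠ 0 := hf i (Finset.mem_insert_self i s)
    have h2 : ∏ j ∈ s, f j ≠ 0 := Finset.prod_ne_zero_iff.mpr
      (fun j hj => hf j (Finset.mem_insert_of_mem hj))
    rw [v.ord_mul' h1 h2, ih (fun j hj => hf j (Finset.mem_insert_of_mem hj))]

/-- **The depth formula.** -/
theorem sum_depth_eq_two (hW : IsLeg W a b) (ha : v.Ge a 0) (hb : v.Ge b 0)
    (h2 : v.Is (2 : K) 0) (hsq : ∀ z : K, ∃ y, y ^ 2 = z) {p : ℕ} (hp : v.Is (p : K) 1)
    (Vp : Finset W.toAffine.Point) (h0V : (0 : W.toAffine.Point) ∈ Vp)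
    {c : K} (hc : v.Is c 0)
    (hstar : ∀ Q : W.toAffine.Point, (∀ T ∈ Vp, 2 • Q ≠ T) →
      ∏ T ∈ Vp, xc (Q + T) = c * xc (p • Q))
    (hker : ∀ T ∈ Vp, T ≠ 0 → v.Lt (xc T) 0) :
    ∑ T ∈ Vp.erase 0, (-(v.ord (xc T))) = 2 := by
  classical
  set S := Vp.erase 0 with hS
  set sm := ∑ T ∈ S, (-(v.ord (xc T))) with hsm
  have hpos : ∀ T ∈ S, 0 < -(v.ord (xc T)) := by
    intro T hT
    have := hker T (Finset.mem_of_mem_erase hT) (Finset.ne_of_mem_erase hT)
    linarith [this.2]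
  have hle : ∀ T ∈ S, -(v.ord (xc T)) ≤ sm := fun T hT =>
    Finset.single_le_sum (fun i hi => (hpos i hi).le) hT
  have hsm0 : 0 ≤ sm := Finset.sum_nonneg (fun i hi => (hpos i hi).le)
  -- choose the depth
  obtain ⟨m, hm⟩ : ∃ m : ℕ, 2 + sm < m := exists_nat_gt _
  have hm0 : 0 < m := by
    have : (0 : ℚ) < m := by linarith
    exact_mod_cast this
  have hm2 : (2 : ℚ) < m := by linarith
  obtain ⟨Q, hQ⟩ := exists_deep_point hW ha hb h2 hsq hp m hm0
  have hmpos : (0 : ℚ) < m := by linarith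
  -- `2Q ∉ Vp`
  have h2Q : v.Is (xc (2 • Q)) (-((m : ℚ) + 2 * 0)) :=
    is_xc_nsmul hW ha hb h2 (n := 2) (by exact_mod_cast h2) hmpos (by linarith) hQ
  have hcond : ∀ T ∈ Vp, 2 • Q ≠ T := by
    intro T hT hTQ
    have hT0 : T ≠ 0 := by
      rw [← hTQ]
      exact ne_zero_of_xc_ne_zero h2Q.1
    have hTS : T ∈ S := Finset.mem_erase.mpr ⟨hT0, hT⟩
    have h1 := hle T hTS
    rw [← hTQ, h2Q.2] at h1
    linarith
  have key := hstar Q hcond
  -- the left-hand side
  have hfac : ∀ T ∈ S, v.Is (xc (Q + T)) (v.ord (xc T)) := by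
    intro T hT
    have hTk := hker T (Finset.mem_of_mem_erase hT) (Finset.ne_of_mem_erase hT)
    have hTis : v.Is (xc T) (-(-(v.ord (xc T)))) := by
      rw [neg_neg]; exact hTk.is
    have hlt : -(v.ord (xc T)) < (m : ℚ) := by
      have := hle T hT
      linarith
    have := is_xc_add hW ha hb h2 (hpos T hT) hlt hTis hQ
    rw [neg_neg, add_comm] at this
    exact this
  have hne : ∀ T ∈ Vp, xc (Q + T) ≠ 0 := by
    intro T hT
    by_cases hT0 : T = 0
    · rw [hT0, add_zero]; exact hQ.1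
    · exact (hfac T (Finset.mem_erase.mpr ⟨hT0, hT⟩)).1
  have hL : v.ord (∏ T ∈ Vp, xc (Q + T)) = -(m : ℚ) - sm := by
    rw [ord_prod Vp _ hne, ← Finset.add_sum_erase Vp _ h0V, add_zero, hQ.2, hsm]
    rw [Finset.sum_neg_distrib]
    have : ∑ T ∈ Vp.erase 0, v.ord (xc (Q + T)) = ∑ T ∈ S, v.ord (xc T) :=
      Finset.sum_congr rfl (fun T hT => (hfac T hT).2)
    rw [this]
    ring
  -- the right-hand side
  have hpQ : v.Is (xc (p • Q)) (-((m : ℚ) + 2 * 1)) :=
    is_xc_nsmul hW ha hb h2 hp hmpos (by linarith) hQ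
  have hR : v.ord (c * xc (p • Q)) = -((m : ℚ) + 2 * 1) := by
    have := hc.mul hpQ
    rw [this.2]; ring
  rw [key, hR] at hL
  linarith

/-- the constant of the norm identity is a unit as soon as there is one point `Q₀` all of whose
translates by `p`-torsion points, and whose `p`-th multiple, have unit abscissa -/
theorem const_is_unit {p : ℕ} (Vp : Finset W.toAffine.Point) {c : K}
    (hstar : ∀ Q : W.toAffine.Point, (∀ T ∈ Vp, 2 • Q ≠ T) →
      ∏ T ∈ Vp, xc (Q + T) = c * xc (p • Q))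
    {Q₀ : W.toAffine.Point} (hcond : ∀ T ∈ Vp, 2 • Q₀ ≠ T)
    (hunit : ∀ T ∈ Vp, v.Is (xc (Q₀ + T)) 0) (hp : v.Is (xc (p • Q₀)) 0) : v.Is c 0 := by
  have key := hstar Q₀ hcond
  have hne : ∀ T ∈ Vp, xc (Q₀ + T) ≠ 0 := fun T hT => (hunit T hT).1
  have hL : v.ord (∏ T ∈ Vp, xc (Q₀ + T)) = 0 := by
    rw [ord_prod Vp _ hne]
    exact Finset.sum_eq_zero (fun T hT => (hunit T hT).2)
  have hprod : ∏ T ∈ Vp, xc (Q₀ + T) ≠ 0 := Finset.prod_ne_zero_iff.mpr hne
  have hc0 : c ≠ 0 := by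
    intro h0
    rw [h0, zero_mul] at key
    exact hprod key
  refine ⟨hc0, ?_⟩
  rw [key, v.ord_mul' hc0 hp.1, hp.2, add_zero] at hL
  exact hL

end

end Fermat.Agent.S13Lib
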