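import Fermat.Agent.Lib.S13.AtP2
import Fermat.Agent.Lib.S05.Global
import Fermat.Agent.Lib.S05.QValQbar
import Fermat.Agent.Lib.Helper6.FrobeniusExists

/-!
# S13, package (C): global tools at `p`

* a normalised valuation attached to a valuation subring of `ℚ̄` over `q` (`ord q = 1`), which is
  `ℤ`-valued on `ℚˣ`;
* the rationality lemma: for a Galois-stable, negation-stable finite set `S` of points in the
  kernel of reduction (without 2-torsion), `∑_{T ∈ S} (- ord x(T)) ≥ 2`.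
-/

set_option autoImplicit false
set_option linter.unusedSectionVars false
set_option linter.unusedVariables false

open WeierstrassCurve WeierstrassCurve.Affine WeierstrassCurve.Affine.Point

namespace Fermat.Agent.S13Lib

open Fermat.Agent.S05Lib

local notation "Qb" => AlgebraicClosure ℚ

/-- a normalised valuation attached to a valuation subring over `q` -/
theorem exists_qvalFor_normalized (A : ValuationSubring Qb) {q : ℕ} (hq : q.Prime)
    (hA : A.LiesOverPrime q) :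
    ∃ v : QVal Qb, QValFor A q v ∧ v.ord ((q : ℕ) : Qb) = 1 := by
  refine ⟨qvalOf A hq hA qv_isAlgebraic_int_qbar, ⟨?_, ?_, ?_, ?_, ?_⟩, ?_⟩
  · exact fun x => qv_mem_iff A hq hA qv_isAlgebraic_int_qbar x
  · exact fun n hn => qvOrd_intCast A hq hA hn
  · show 0 < qvOrd A q ((q : ℕ) : Qb)
    rw [qvOrd_q A hq hA]; exact one_pos
  · exact fun σ hσ x => qv_inertia_ord A hq hA qv_isAlgebraic_int_qbar hσ x
  · exact fun σ hσ x hx => qv_inertia_sub A hq hA qv_isAlgebraic_int_qbar hσ hx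
  · exact qvOrd_q A hq hA

section ordQ

variable {A : ValuationSubring Qb} {q : ℕ} {v : QVal Qb} (hv : QValFor A q v)
  (hq : q.Prime) (hq1 : v.ord ((q : ℕ) : Qb) = 1)
include hv hq hq1

/-- `ord` of a nonzero integer is a natural number -/
lemma exists_ord_intCast {n : ℤ} (hn : n ≠ 0) : ∃ k : ℕ, v.ord ((n : ℤ) : Qb) = k := by
  have hqZ : Prime (q : ℤ) := Nat.prime_iff_prime_int.mp hq
  have hfin : FiniteMultiplicity (q : ℤ) n :=
    FiniteMultiplicity.of_prime_left hqZ hn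
  obtain ⟨c, hc, hdvd⟩ := hfin.exists_eq_pow_mul_and_not_dvd
  refine ⟨multiplicity (q : ℤ) n, ?_⟩
  have hc0 : ((c : ℤ) : Qb) ≠ 0 := by
    have : c ≠ 0 := by
      rintro rfl
      exact hdvd (dvd_zero _)
    exact_mod_cast this
  have hq0 : ((q : ℕ) : Qb) ≠ 0 := by
    exact_mod_cast hq.ne_zero
  have e : ((n : ℤ) : Qb) = ((q : ℕ) : Qb) ^ multiplicity (q : ℤ) n * ((c : ℤ) : Qb) := by
    conv_lhs => rw [hc]
    push_cast
    ring
  rw [e, v.ord_mul' (pow_ne_zero _ hq0) hc0, v.ord_pow hq0, hq1, hv.ord_int c hdvd]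
  ring

/-- `ord` of a nonzero rational number is an integer -/
lemma exists_ord_ratCast {r : ℚ} (hr : r ≠ 0) : ∃ k : ℤ, v.ord ((r : ℚ) : Qb) = k := by
  have hnum : r.num ≠ 0 := Rat.num_ne_zero.mpr hr
  have hden : (r.den : ℤ) ≠ 0 := by exact_mod_cast r.den_ne_zero
  obtain ⟨k1, hk1⟩ := exists_ord_intCast hv hq hq1 hnum
  obtain ⟨k2, hk2⟩ := exists_ord_intCast hv hq hq1 hden
  refine ⟨(k1 : ℤ) - k2, ?_⟩
  have e : ((r : ℚ) : Qb) = ((r.num : ℤ) : Qb) / (((r.den : ℤ) : ℤ) : Qb) := by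
    conv_lhs => rw [← Rat.num_div_den r]
    push_cast
    rfl
  have h1 : ((r.num : ℤ) : Qb) ≠ 0 := by exact_mod_cast hnum
  have h2 : (((r.den : ℤ) : ℤ) : Qb) ≠ 0 := by exact_mod_cast hden
  rw [e, v.ord_div h1 h2, hk1, hk2]
  push_cast
  ring

end ordQ

/-- an element of `ℚ̄` fixed by the whole Galois group is rational -/
lemma exists_rat_of_fixed (x : Qb) (hx : ∀ σ : Qb ≃ₐ[ℚ] Qb, σ x = x) : ∃ r : ℚ, x = (r : Qb) := by
  have := Fermat.Agent.Lib.Helper6.isGalois_rat_algebraicClosure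
  have := (InfiniteGalois.mem_bot_iff_fixed (k := ℚ) (K := Qb) x).mpr hx
  rw [IntermediateField.mem_bot] at this
  obtain ⟨r, hr⟩ := this
  exact ⟨r, by rw [← hr]; simp⟩

/-! ### Galois action on points -/

section galois

variable {L : WeierstrassCurve ℚ}

lemma xc_smul (σ : Qb ≃ₐ[ℚ] Qb) (P : (L.toAffine⁄Qb).Point) : xc (σ • P) = σ (xc P) := by
  rcases P with _ | ⟨x, y, hxy⟩
  · show (0 : Qb) = σ 0
    rw [_root_.map_zero]
  · rfl

lemma smul_eq_zero_iff' (σ : Qb ≃ₐ[ℚ] Qb) (P : (L.toAffine⁄Qb).Point) : σ • P = 0 ↔ P = 0 := by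
  constructor
  · intro h
    have h1 : σ⁻¹ • (σ • P) = σ⁻¹ • (0 : (L.toAffine⁄Qb).Point) := by rw [h]
    rw [inv_smul_smul] at h1
    rw [h1]
    rfl
  · rintro rfl
    rfl

end galois

/-! ### The rationality lemma -/

section rational

variable {A : ValuationSubring Qb} {q : ℕ} {v : QVal Qb} (hv : QValFor A q v)
  (hq : q.Prime) (hq1 : v.ord ((q : ℕ) : Qb) = 1)
  {L : WeierstrassCurve ℚ} {a b : Qb} (hW : IsLeg (L.toAffine⁄Qb) a b)
include hv hq hq1 hW

/-- For a nonempty Galois-stable, negation-stable finite set of points in the kernel of reduction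
without `2`-torsion, the total depth is at least `2`. -/
theorem two_le_sum_depth (S : Finset (L.toAffine⁄Qb).Point) (hne : S.Nonempty)
    (hstab : ∀ σ : Qb ≃ₐ[ℚ] Qb, ∀ T ∈ S, σ • T ∈ S) (hneg : ∀ T ∈ S, -T ∈ S)
    (h2tor : ∀ T ∈ S, -T ≠ T) (hker : ∀ T ∈ S, v.Lt (xc T) 0) :
    2 ≤ ∑ T ∈ S, (-(v.ord (xc T))) := by
  classical
  set X := S.image xc with hX
  have hXne : X.Nonempty := hne.image _
  have hXker : ∀ x ∈ X, v.Lt x 0 := by
    intro x hx
    obtain ⟨T, hT, rfl⟩ := Finset.mem_image.mp hx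
    exact hker T hT
  have hX0 : ∀ x ∈ X, x ≠ 0 := fun x hx => (hXker x hx).1
  set π := ∏ x ∈ X, x with hπ
  have hπ0 : π ≠ 0 := Finset.prod_ne_zero_iff.mpr hX0
  -- `π` is Galois-fixed
  have hfix : ∀ σ : Qb ≃ₐ[ℚ] Qb, σ π = π := by
    intro σ
    have himg : X.image σ = X := by
      apply Finset.eq_of_subset_of_card_le
      · intro y hy
        obtain ⟨x, hx, rfl⟩ := Finset.mem_image.mp hy
        obtain ⟨T, hT, rfl⟩ := Finset.mem_image.mp hx
        rw [← xc_smul]
        exact Finset.mem_image_of_mem _ (hstab σ T hT)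
      · rw [Finset.card_image_of_injective _ σ.injective]
    rw [hπ, map_prod]
    conv_rhs => rw [← himg]
    rw [Finset.prod_image (fun x _ y _ h => σ.injective h)]
  obtain ⟨r, hr⟩ := exists_rat_of_fixed π hfix
  have hr0 : r ≠ 0 := by
    rintro rfl
    apply hπ0
    rw [hr]
    simp
  obtain ⟨k, hk⟩ := exists_ord_ratCast hv hq hq1 hr0
  rw [← hr] at hk
  have hsumX : v.ord π = ∑ x ∈ X, v.ord x := ord_prod X (fun x => x) hX0
  have hneg' : ∑ x ∈ X, v.ord x < 0 :=
    Finset.sum_neg (fun x hx => (hXker x hx).2) hXne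
  have hk1 : (k : ℚ) ≤ -1 := by
    have : (k : ℚ) < 0 := by rw [← hk, hsumX]; exact hneg'
    have : k < 0 := by exact_mod_cast this
    have : k ≤ -1 := by omega
    exact_mod_cast this
  have hX1 : ∑ x ∈ X, v.ord x ≤ -1 := by rw [← hsumX, hk]; exact hk1
  -- fibres have at least two elements
  have hfib : ∀ x ∈ X, 2 ≤ (S.filter (fun T => xc T = x)).card := by
    intro x hx
    obtain ⟨T, hT, rfl⟩ := Finset.mem_image.mp hx
    have h1 : T ∈ S.filter (fun T' => xc T' = xc T) := Finset.mem_filter.mpr ⟨hT, rfl⟩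
    have h2 : -T ∈ S.filter (fun T' => xc T' = xc T) :=
      Finset.mem_filter.mpr ⟨hneg T hT, xc_neg hW T⟩
    exact Finset.one_lt_card.mpr ⟨-T, h2, T, h1, h2tor T hT⟩
  have hsplit : ∑ T ∈ S, v.ord (xc T) =
      ∑ x ∈ X, ∑ T ∈ S.filter (fun T => xc T = x), v.ord (xc T) :=
    (Finset.sum_fiberwise_of_maps_to (fun T hT => Finset.mem_image_of_mem xc hT) _).symm
  have hle : ∑ T ∈ S, v.ord (xc T) ≤ ∑ x ∈ X, 2 * v.ord x := by
    rw [hsplit]
    apply Finset.sum_le_sum
    intro x hx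
    have : ∑ T ∈ S.filter (fun T => xc T = x), v.ord (xc T) =
        ((S.filter (fun T => xc T = x)).card : ℚ) * v.ord x := by
      rw [Finset.sum_congr rfl (fun T hT => by rw [(Finset.mem_filter.mp hT).2]),
        Finset.sum_const, nsmul_eq_mul]
    rw [this]
    have h2 : (2 : ℚ) ≤ (S.filter (fun T => xc T = x)).card := by exact_mod_cast hfib x hx
    have h3 := (hXker x hx).2
    nlinarith
  rw [Finset.sum_neg_distrib]
  rw [← Finset.mul_sum] at hle
  linarith

end rational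

end Fermat.Agent.S13Lib
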