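import Fermat.Agent.Lib.S13.AtPDich

/-!
# S13, package (C): P1 for the Legendre curves `legQ e r` at an odd prime `q`

Inertia at `q` moves every point (good reduction), resp. every `n`-torsion point (node with
`e = ε ^ n`), by an element of the kernel of reduction.  No hypothesis `q ≠ n`.
-/

set_option autoImplicit false
set_option linter.unusedSectionVars false
set_option linter.unusedVariables false

open WeierstrassCurve WeierstrassCurve.Affine WeierstrassCurve.Affine.Point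

namespace Fermat.Agent.S13Lib

open Fermat.Agent.S05Lib

local notation "Qb" => AlgebraicClosure ℚ

section main

variable {A : ValuationSubring Qb} {q : ℕ} {v : QVal Qb} (hv : QValFor A q v)
  (hq : q.Prime) (hq2 : q ≠ 2)
  {σ : Qb ≃ₐ[ℚ] Qb} (hσ : σ ∈ A.inertiaSubgroupIn ℚ)
include hv hq hq2 hσ

/-- Good reduction: `σ P - P` lies in the kernel of reduction, for every point `P`. -/
theorem leg_map_sub_inE_good {e r : ℤ} (he : ¬ (q : ℤ) ∣ e) (hr : ¬ (q : ℤ) ∣ r)
    (her : ¬ (q : ℤ) ∣ e - r) (P : ((legQ e r).toAffine⁄Qb).Point) :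
    ∃ τ : ℚ, 0 < τ ∧ InE v τ (σ • P - P) := by
  have hW := isLeg_legQ e r
  have hei := hv.is_int he
  have hri := hv.is_int hr
  have heri : v.Is ((e : Qb) - r) 0 := by
    have := hv.is_int her
    exact_mod_cast this
  have ha : v.Ge (-((e : Qb) + r)) 0 := (hei.ge.add hri.ge).neg
  have hb : v.Ge ((e : Qb) * r) 0 := (hei.mul0 hri).ge
  exact exists_inE_map_sub_of_good hW ha hb (hv.is_two hq hq2) (hv.inertiaLike (legQ e r) hσ)
    (good_of_roots hW hei hri heri) P

omit hq hq2 hσ in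
/-- integrality of the coefficients of `legQ e r` -/
lemma legQ_integral (e r : ℤ) :
    v.Ge (-((e : Qb) + r)) 0 ∧ v.Ge ((e : Qb) * r) 0 :=
  ⟨((hv.ge_int e).add (hv.ge_int r)).neg, by
    have := (hv.ge_int e).mul (hv.ge_int r)
    simpa using this⟩

/-- Multiplicative reduction with `e = ε ^ n`: `σ P - P` lies in the kernel of reduction for
every `n`-torsion point `P`. -/
theorem leg_map_sub_inE_node {ε r : ℤ} (hε : (q : ℤ) ∣ ε) (hε0 : ε ≠ 0) (hr : ¬ (q : ℤ) ∣ r)
    {n : ℕ} (hn : n ≠ 0)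
    (P : ((legQ (ε ^ n) r).toAffine⁄Qb).Point) (hP : n • P = 0) :
    ∃ τ : ℚ, 0 < τ ∧ InE v τ (σ • P - P) := by
  have hW := isLeg_legQ (ε ^ n) r
  have hri := hv.is_int hr
  have hε0' : (ε : Qb) ≠ 0 := by exact_mod_cast hε0
  have hεi : v.Is (ε : Qb) (v.ord (ε : Qb)) := QVal.is_ord hε0'
  have hη : 0 < v.ord (ε : Qb) := (hv.gt_int hq hε).resolve_left hε0'
  have hei : v.Is ((ε ^ n : ℤ) : Qb) (n * v.ord (ε : Qb)) := by
    have := hεi.pow n
    exact_mod_cast this
  have hh : 0 < (n : ℚ) * v.ord (ε : Qb) := by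
    have : 0 < (n : ℚ) := by exact_mod_cast Nat.pos_of_ne_zero hn
    positivity
  have ha : v.Is (-(((ε ^ n : ℤ) : Qb) + r)) 0 := (hri.add_gt' (hei.gt hh)).neg
  have hb : v.Is (((ε ^ n : ℤ) : Qb) * r) (n * v.ord (ε : Qb)) :=
    (hei.mul hri).congr (add_zero _)
  have hsq : ∀ z : Qb, ∃ y, y ^ 2 = z := fun z => IsAlgClosed.exists_pow_nat_eq z two_pos
  refine exists_inE_map_sub_of_node hW ha hb hh (hv.is_two hq hq2)
    (hv.inertiaLike (legQ (ε ^ n) r) hσ) hn hsq hεi hη rfl ?_ ?_ ?_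
    (node_of_roots hW (hei.gt hh) hri) hP
  · simp
  · simp
  · simp

end main

end Fermat.Agent.S13Lib
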