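/-
P7 / S13, package (E-prep): glue between the Prelude language (the `ZMod n`-module
`Submodule.torsionBy ℤ (E⁄ℚ̄).Point n` with its Galois action) and the local packages.

* `fixSub N`, `quotFixSub N hN`: the subgroups of `G_ℚ` acting trivially on a Galois-stable
  submodule `N`, resp. on the quotient by `N`; they are normal and open (for finite torsion).
* `pullTors φ N`: transport of a submodule of the torsion of `C • L` to an additive subgroup of
  the points of `L` along a Galois-equivariant additive equivalence, with the transfer lemmas.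
* `frey_form`: for every prime `q` the Frey curve is a change of variables of a Legendre curve
  `y² = x (x - e) (x - r)` which has good reduction at `q`, or `e = ε ^ p` with `q ∣ ε`, `q ∤ r`.
-/
import Fermat.Agent.Lib.S05.Frey
import Fermat.Prelude.Def_FLTPrelim_CofixedLine

set_option autoImplicit false
set_option linter.unusedSectionVars false
set_option linter.unusedVariables false

open WeierstrassCurve WeierstrassCurve.Affine WeierstrassCurve.Affine.Point

namespace Fermat.Agent.S13Lib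

local notation "Qb" => AlgebraicClosure ℚ
local notation "GQ" => (AlgebraicClosure ℚ ≃ₐ[ℚ] AlgebraicClosure ℚ)

section Subgroups

/-- The `n`-torsion of `E(ℚ̄)` in the Prelude's form. -/
noncomputable abbrev Tors (E : WeierstrassCurve ℚ) (n : ℕ) :=
  Submodule.torsionBy ℤ (E.toAffine⁄Qb).Point n

variable {E : WeierstrassCurve ℚ} {n : ℕ}

/-- The subgroup of `G_ℚ` fixing `N` pointwise. -/
def fixSub (N : Submodule (ZMod n) (Tors E n)) : Subgroup GQ where
  carrier := {σ | ∀ y ∈ N, σ • y = y}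
  one_mem' := fun y _ => one_smul _ y
  mul_mem' := by
    intro σ τ hσ hτ y hy
    rw [mul_smul, hτ y hy, hσ y hy]
  inv_mem' := by
    intro σ hσ y hy
    rw [inv_smul_eq_iff]
    exact (hσ y hy).symm

@[simp] lemma mem_fixSub {N : Submodule (ZMod n) (Tors E n)} {σ : GQ} :
    σ ∈ fixSub N ↔ ∀ y ∈ N, σ • y = y := Iff.rfl

/-- The subgroup of `G_ℚ` acting trivially on the quotient by the Galois-stable submodule `N`. -/
def quotFixSub (N : Submodule (ZMod n) (Tors E n)) (hN : IsGaloisStable ℚ N) : Subgroup GQ where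
  carrier := {σ | ∀ x : Tors E n, σ • x - x ∈ N}
  one_mem' := by
    intro x
    rw [one_smul, sub_self]
    exact N.zero_mem
  mul_mem' := by
    intro σ τ hσ hτ x
    have e : (σ * τ) • x - x = σ • (τ • x - x) + (σ • x - x) := by
      rw [mul_smul, smul_sub]
      abel
    rw [e]
    exact N.add_mem (hN σ _ (hτ x)) (hσ x)
  inv_mem' := by
    intro σ hσ x
    have e : σ⁻¹ • x - x = -(σ⁻¹ • (σ • x - x)) := by
      rw [smul_sub, inv_smul_smul]
      abel
    rw [e]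
    exact N.neg_mem (hN σ⁻¹ _ (hσ x))

@[simp] lemma mem_quotFixSub {N : Submodule (ZMod n) (Tors E n)} {hN : IsGaloisStable ℚ N} {σ : GQ} :
    σ ∈ quotFixSub N hN ↔ ∀ x : Tors E n, σ • x - x ∈ N := Iff.rfl

theorem fixSub_normal (N : Submodule (ZMod n) (Tors E n)) (hN : IsGaloisStable ℚ N) :
    (fixSub N).Normal := by
  refine ⟨fun σ hσ τ y hy => ?_⟩
  rw [mul_smul, mul_smul, hσ _ (hN τ⁻¹ y hy), smul_inv_smul]

theorem quotFixSub_normal (N : Submodule (ZMod n) (Tors E n)) (hN : IsGaloisStable ℚ N) :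
    (quotFixSub N hN).Normal := by
  refine ⟨fun σ hσ τ x => ?_⟩
  have e : (τ * σ * τ⁻¹) • x - x = τ • (σ • (τ⁻¹ • x) - τ⁻¹ • x) := by
    rw [mul_smul, mul_smul, smul_sub, smul_inv_smul]
  rw [e]
  exact hN τ _ (hσ _)

/-- The stabiliser of a point of `E(ℚ̄)` is open. -/
lemma isOpen_stabilizer_point (P : (E.toAffine⁄Qb).Point) :
    ∃ U : Subgroup GQ, IsOpen (U : Set GQ) ∧ ∀ σ ∈ U, σ • P = P := by
  rcases P with _ | ⟨x, y, h⟩
  · exact ⟨⊤, isOpen_univ, fun σ _ => rfl⟩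
  · let F : IntermediateField ℚ Qb := IntermediateField.adjoin ℚ {x, y}
    have hfin : FiniteDimensional ℚ F := by
      apply IntermediateField.finiteDimensional_adjoin
      intro z _
      exact (AlgebraicClosure.isAlgebraic ℚ).isIntegral.isIntegral z
    refine ⟨F.fixingSubgroup, IntermediateField.fixingSubgroup_isOpen F, fun σ hσ => ?_⟩
    have hx : σ x = x := by
      have := (IntermediateField.mem_fixingSubgroup_iff F σ).mp hσ x
        (IntermediateField.subset_adjoin ℚ _ (by simp))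
      simpa using this
    have hy : σ y = y := by
      have := (IntermediateField.mem_fixingSubgroup_iff F σ).mp hσ y
        (IntermediateField.subset_adjoin ℚ _ (by simp))
      simpa using this
    have h' : (E.toAffine⁄Qb).Nonsingular (σ x) (σ y) :=
      (E.toAffine.baseChange_nonsingular σ.toAlgHom.injective ..).mpr h
    have e : σ • (Point.some x y h : (E.toAffine⁄Qb).Point) = Point.some (σ x) (σ y) h' := rfl
    rw [e]
    simp only [hx, hy]

/-- The kernel of the action on finite torsion is open. -/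
lemma exists_isOpen_forall_smul_eq [Finite (Tors E n)] :
    ∃ U : Subgroup GQ, IsOpen (U : Set GQ) ∧ ∀ σ ∈ U, ∀ x : Tors E n, σ • x = x := by
  classical
  have key : ∀ s : Finset (Tors E n), ∃ U : Subgroup GQ, IsOpen (U : Set GQ) ∧
      ∀ σ ∈ U, ∀ x ∈ s, σ • x = x := by
    intro s
    induction s using Finset.induction_on with
    | empty => exact ⟨⊤, isOpen_univ, fun σ _ x hx => absurd hx (Finset.notMem_empty x)⟩
    | insert a s ha ih =>
      obtain ⟨U, hU, hUs⟩ := ih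
      obtain ⟨U', hU', hUa⟩ := isOpen_stabilizer_point (a : (E.toAffine⁄Qb).Point)
      refine ⟨U ⊓ U', ?_, ?_⟩
      · rw [Subgroup.coe_inf]
        exact hU.inter hU'
      · intro σ hσ x hx
        rcases Finset.mem_insert.mp hx with rfl | hx
        · exact Subtype.ext (hUa σ hσ.2)
        · exact hUs σ hσ.1 x hx
  have := Fintype.ofFinite (Tors E n)
  obtain ⟨U, hU, h⟩ := key Finset.univ
  exact ⟨U, hU, fun σ hσ x => h σ hσ x (Finset.mem_univ x)⟩

lemma isOpen_fixSub [Finite (Tors E n)] (N : Submodule (ZMod n) (Tors E n)) :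
    IsOpen ((fixSub N : Subgroup GQ) : Set GQ) := by
  obtain ⟨U, hU, h⟩ := exists_isOpen_forall_smul_eq (E := E) (n := n)
  exact Subgroup.isOpen_mono (fun σ hσ y _ => h σ hσ y) hU

lemma isOpen_quotFixSub [Finite (Tors E n)] (N : Submodule (ZMod n) (Tors E n)) (hN : IsGaloisStable ℚ N) :
    IsOpen ((quotFixSub N hN : Subgroup GQ) : Set GQ) := by
  obtain ⟨U, hU, h⟩ := exists_isOpen_forall_smul_eq (E := E) (n := n)
  refine Subgroup.isOpen_mono (fun σ hσ x => ?_) hU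
  rw [h σ hσ x, sub_self]
  exact N.zero_mem

end Subgroups

section Transport

variable {L E : WeierstrassCurve ℚ} {n : ℕ}
  (φ : (L.toAffine⁄Qb).Point ≃+ (E.toAffine⁄Qb).Point)

/-- Transport of a submodule of the `n`-torsion of `E` to an additive subgroup of the points of
`L` along an additive equivalence `φ : L(ℚ̄) ≃+ E(ℚ̄)`. -/
noncomputable def pullTors (N : Submodule (ZMod n) (Tors E n)) : AddSubgroup (L.toAffine⁄Qb).Point where
  carrier := {Q | ∃ x ∈ N, (x : (E.toAffine⁄Qb).Point) = φ Q}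
  zero_mem' := ⟨0, N.zero_mem, by rw [_root_.map_zero]; rfl⟩
  add_mem' := by
    rintro Q Q' ⟨x, hx, ex⟩ ⟨x', hx', ex'⟩
    refine ⟨x + x', N.add_mem hx hx', ?_⟩
    rw [_root_.map_add, ← ex, ← ex']
    rfl
  neg_mem' := by
    rintro Q ⟨x, hx, ex⟩
    refine ⟨-x, N.neg_mem hx, ?_⟩
    rw [_root_.map_neg, ← ex]
    rfl

variable {φ}

lemma mem_pullTors {N : Submodule (ZMod n) (Tors E n)} {Q : (L.toAffine⁄Qb).Point} :
    Q ∈ pullTors φ N ↔ ∃ x ∈ N, (x : (E.toAffine⁄Qb).Point) = φ Q := Iff.rfl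

/-- A point of `L` is `n`-torsion iff its image is. -/
lemma nsmul_eq_zero_iff_map (Q : (L.toAffine⁄Qb).Point) : n • Q = 0 ↔ n • φ Q = 0 := by
  rw [← map_nsmul]
  exact (map_eq_zero_iff φ φ.injective).symm

lemma mem_torsionBy_iff_nsmul {W : WeierstrassCurve ℚ} (R : (W.toAffine⁄Qb).Point) :
    R ∈ Submodule.torsionBy ℤ (W.toAffine⁄Qb).Point n ↔ n • R = 0 := by
  rw [Submodule.mem_torsionBy_iff, natCast_zsmul]

/-- The image of an `n`-torsion point of `L` as an element of the torsion module of `E`. -/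
noncomputable def torsOf (Q : (L.toAffine⁄Qb).Point) (hQ : n • Q = 0) : Tors E n :=
  ⟨φ Q, (mem_torsionBy_iff_nsmul _).mpr ((nsmul_eq_zero_iff_map (φ := φ) Q).mp hQ)⟩

@[simp] lemma coe_torsOf (Q : (L.toAffine⁄Qb).Point) (hQ : n • Q = 0) :
    ((torsOf (φ := φ) Q hQ : Tors E n) : (E.toAffine⁄Qb).Point) = φ Q := rfl

lemma nsmul_symm_eq_zero (x : Tors E n) : n • φ.symm (x : (E.toAffine⁄Qb).Point) = 0 := by
  rw [nsmul_eq_zero_iff_map (φ := φ), φ.apply_symm_apply]
  exact (mem_torsionBy_iff_nsmul _).mp x.2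

lemma torsOf_symm (x : Tors E n) :
    torsOf (φ := φ) (φ.symm (x : (E.toAffine⁄Qb).Point)) (nsmul_symm_eq_zero x) = x :=
  Subtype.ext (φ.apply_symm_apply _)

lemma nsmul_eq_zero_of_mem_pullTors {N : Submodule (ZMod n) (Tors E n)}
    {Q : (L.toAffine⁄Qb).Point} (hQ : Q ∈ pullTors φ N) : n • Q = 0 := by
  obtain ⟨x, _, ex⟩ := hQ
  rw [nsmul_eq_zero_iff_map (φ := φ), ← ex]
  exact (mem_torsionBy_iff_nsmul _).mp x.2

lemma mem_pullTors_iff_torsOf {N : Submodule (ZMod n) (Tors E n)} {Q : (L.toAffine⁄Qb).Point}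
    (hQ : n • Q = 0) : Q ∈ pullTors φ N ↔ torsOf (φ := φ) Q hQ ∈ N := by
  constructor
  · rintro ⟨x, hx, ex⟩
    have : torsOf (φ := φ) Q hQ = x := Subtype.ext ex.symm
    rwa [this]
  · intro h
    exact ⟨_, h, rfl⟩

lemma symm_mem_pullTors {N : Submodule (ZMod n) (Tors E n)} {x : Tors E n} (hx : x ∈ N) :
    φ.symm (x : (E.toAffine⁄Qb).Point) ∈ pullTors φ N :=
  ⟨x, hx, (φ.apply_symm_apply _).symm⟩

/-- The `n`-torsion of `L` and the torsion module of `E` correspond bijectively. -/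
noncomputable def torsEquiv (φ : (L.toAffine⁄Qb).Point ≃+ (E.toAffine⁄Qb).Point) :
    {Q : (L.toAffine⁄Qb).Point // n • Q = 0} ≃ Tors E n where
  toFun Q := torsOf (φ := φ) Q.1 Q.2
  invFun x := ⟨φ.symm (x : (E.toAffine⁄Qb).Point), nsmul_symm_eq_zero x⟩
  left_inv Q := Subtype.ext (φ.symm_apply_apply _)
  right_inv x := torsOf_symm x

lemma natCard_torsion_eq (φ : (L.toAffine⁄Qb).Point ≃+ (E.toAffine⁄Qb).Point) :
    Nat.card {Q : (L.toAffine⁄Qb).Point // n • Q = 0} = Nat.card (Tors E n) :=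
  Nat.card_congr (torsEquiv φ)

/-- `pullTors φ N` and `N` correspond bijectively. -/
noncomputable def pullTorsEquiv (φ : (L.toAffine⁄Qb).Point ≃+ (E.toAffine⁄Qb).Point)
    (N : Submodule (ZMod n) (Tors E n)) : pullTors φ N ≃ N where
  toFun Q := ⟨torsOf (φ := φ) Q.1 (nsmul_eq_zero_of_mem_pullTors Q.2),
    (mem_pullTors_iff_torsOf _).mp Q.2⟩
  invFun x := ⟨φ.symm ((x : Tors E n) : (E.toAffine⁄Qb).Point), symm_mem_pullTors x.2⟩
  left_inv Q := Subtype.ext (φ.symm_apply_apply _)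
  right_inv x := Subtype.ext (torsOf_symm _)

lemma natCard_pullTors (φ : (L.toAffine⁄Qb).Point ≃+ (E.toAffine⁄Qb).Point)
    (N : Submodule (ZMod n) (Tors E n)) : Nat.card (pullTors φ N) = Nat.card N :=
  Nat.card_congr (pullTorsEquiv φ N)

lemma exists_mem_pullTors_ne_zero {N : Submodule (ZMod n) (Tors E n)} (hN : N ≠ ⊥) :
    ∃ Q ∈ pullTors φ N, Q ≠ 0 := by
  obtain ⟨x, hx, hx0⟩ := (Submodule.ne_bot_iff N).mp hN
  refine ⟨_, symm_mem_pullTors hx, fun h => hx0 ?_⟩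
  have h1 : (x : (E.toAffine⁄Qb).Point) = 0 := by
    have := congrArg φ h
    rwa [φ.apply_symm_apply, _root_.map_zero] at this
  exact Subtype.ext h1

lemma exists_torsion_notMem_pullTors {N : Submodule (ZMod n) (Tors E n)} (hN : N ≠ ⊤) :
    ∃ Q : (L.toAffine⁄Qb).Point, n • Q = 0 ∧ Q ∉ pullTors φ N := by
  obtain ⟨x, hx⟩ : ∃ x : Tors E n, x ∉ N := by
    by_contra hcon
    push Not at hcon
    exact hN (eq_top_iff.mpr fun x _ => hcon x)
  refine ⟨φ.symm (x : (E.toAffine⁄Qb).Point), nsmul_symm_eq_zero x, fun h => hx ?_⟩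
  rw [mem_pullTors_iff_torsOf (nsmul_symm_eq_zero x), torsOf_symm] at h
  exact h

lemma nsmul_smul_eq_zero {W : WeierstrassCurve ℚ} (σ : GQ) {Q : (W.toAffine⁄Qb).Point}
    (hQ : n • Q = 0) : n • (σ • Q) = 0 := by
  have h := map_nsmul (DistribSMul.toAddMonoidHom (W.toAffine⁄Qb).Point σ) n Q
  simp only [DistribSMul.toAddMonoidHom_apply] at h
  rw [← h, hQ, smul_zero]

section Equivariant

variable (hφ : ∀ (σ : GQ) (P : (L.toAffine⁄Qb).Point), φ (σ • P) = σ • φ P)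
include hφ

lemma torsOf_smul (σ : GQ) (Q : (L.toAffine⁄Qb).Point) (hQ : n • Q = 0)
    (hQ' : n • (σ • Q) = 0) :
    torsOf (φ := φ) (σ • Q) hQ' = σ • torsOf (φ := φ) Q hQ :=
  Subtype.ext (hφ σ Q)

lemma smul_mem_pullTors {N : Submodule (ZMod n) (Tors E n)} (hN : IsGaloisStable ℚ N)
    (σ : GQ) {Q : (L.toAffine⁄Qb).Point} (hQ : Q ∈ pullTors φ N) : σ • Q ∈ pullTors φ N := by
  obtain ⟨x, hx, ex⟩ := hQ
  refine ⟨σ • x, hN σ x hx, ?_⟩
  rw [hφ σ Q, ← ex]
  rfl

/-- Transfer: if `σ` fixes `pullTors φ N` pointwise then it fixes `N` pointwise. -/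
theorem smul_eq_of_pullTors {N : Submodule (ZMod n) (Tors E n)} {σ : GQ}
    (h : ∀ Q ∈ pullTors φ N, σ • Q = Q) : ∀ y ∈ N, σ • y = y := by
  intro y hy
  apply Subtype.ext
  have h1 := h _ (symm_mem_pullTors (φ := φ) hy)
  have h2 := hφ σ (φ.symm (y : (E.toAffine⁄Qb).Point))
  rw [h1, φ.apply_symm_apply] at h2
  exact h2.symm

/-- Transfer: if `σ Q - Q ∈ pullTors φ N` for all `n`-torsion points `Q` of `L` then `σ` acts
trivially on the quotient of the torsion module of `E` by `N`. -/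
theorem smul_sub_mem_of_pullTors {N : Submodule (ZMod n) (Tors E n)} {σ : GQ}
    (h : ∀ Q : (L.toAffine⁄Qb).Point, n • Q = 0 → σ • Q - Q ∈ pullTors φ N) :
    ∀ x : Tors E n, σ • x - x ∈ N := by
  intro x
  obtain ⟨z, hz, ez⟩ := h _ (nsmul_symm_eq_zero (φ := φ) x)
  have : z = σ • x - x := by
    apply Subtype.ext
    rw [ez, _root_.map_sub, hφ, φ.apply_symm_apply]
    rfl
  rwa [← this]

/-- Converse transfer (fixing pointwise). -/
theorem smul_eq_pullTors_of {N : Submodule (ZMod n) (Tors E n)} {σ : GQ}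
    (h : ∀ y ∈ N, σ • y = y) : ∀ Q ∈ pullTors φ N, σ • Q = Q := by
  rintro Q ⟨x, hx, ex⟩
  apply φ.injective
  rw [hφ, ← ex]
  exact congrArg Subtype.val (h x hx)

/-- Converse transfer (trivial action on the quotient). -/
theorem smul_sub_mem_pullTors_of {N : Submodule (ZMod n) (Tors E n)} {σ : GQ}
    (h : ∀ x : Tors E n, σ • x - x ∈ N) :
    ∀ Q : (L.toAffine⁄Qb).Point, n • Q = 0 → σ • Q - Q ∈ pullTors φ N := by
  intro Q hQ
  refine ⟨_, h (torsOf (φ := φ) Q hQ), ?_⟩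
  rw [_root_.map_sub, hφ]
  rfl

end Equivariant

end Transport

section FreyForm

open Fermat.Agent.S05Lib

/-- For every prime `q` the Frey curve is a rational change of variables (`freyVC ρ`, i.e.
`(x, y) ↦ (4 x + ρ, 8 y + 4 x)`) of a Legendre curve `legQ e r : y² = x (x - e) (x - r)` with
`e, r ∈ ℤ` which either has good reduction at `q` (`q ∤ e, r, e - r`) or is of the form
`e = ε ^ p` with `q ∣ ε`, `ε ≠ 0`, `q ∤ r` (multiplicative reduction, node at `x = 0`). -/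
theorem frey_form (P : FreyPackage) {q : ℕ} (hq : q.Prime) :
    ∃ (e r : ℤ) (ρ : ℚ), P.freyCurve = freyVC ρ • legQ e r ∧
      ((¬ (q : ℤ) ∣ e ∧ ¬ (q : ℤ) ∣ r ∧ ¬ (q : ℤ) ∣ e - r) ∨
        (∃ ε : ℤ, e = ε ^ P.p ∧ (q : ℤ) ∣ ε ∧ ε ≠ 0 ∧ ¬ (q : ℤ) ∣ r)) := by
  have hqZ : Prime (q : ℤ) := Nat.prime_iff_prime_int.mp hq
  have hcop : ∀ {m n : ℤ}, gcd m n = 1 → (q : ℤ) ∣ m → ¬ (q : ℤ) ∣ n := by
    intro m n hmn hm hn
    have := dvd_gcd hm hn
    rw [hmn] at this
    exact hqZ.not_isUnit (isUnit_of_dvd_one this)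
  have hpow : ∀ {m : ℤ}, ¬ (q : ℤ) ∣ m → ¬ (q : ℤ) ∣ m ^ P.p := fun h h' =>
    h (hqZ.dvd_of_dvd_pow h')
  by_cases ha : (q : ℤ) ∣ P.a
  · have hb : ¬ (q : ℤ) ∣ P.b := hcop P.hgcdab ha
    exact ⟨P.a ^ P.p, -(P.b ^ P.p), 0, freyCurve_eq_ab P,
      Or.inr ⟨P.a, rfl, ha, P.ha0, by rw [dvd_neg]; exact hpow hb⟩⟩
  by_cases hb : (q : ℤ) ∣ P.b
  · exact ⟨(-P.b) ^ P.p, P.a ^ P.p, 0, freyCurve_eq_ba P,
      Or.inr ⟨-P.b, rfl, by rw [dvd_neg]; exact hb, neg_ne_zero.mpr P.hb0, hpow ha⟩⟩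
  by_cases hc : (q : ℤ) ∣ P.c
  · exact ⟨(-P.c) ^ P.p, -(P.a ^ P.p), -((P.a : ℚ) ^ P.p), freyCurve_eq_c P,
      Or.inr ⟨-P.c, rfl, by rw [dvd_neg]; exact hc, neg_ne_zero.mpr P.hc0,
        by rw [dvd_neg]; exact hpow ha⟩⟩
  · refine ⟨P.a ^ P.p, -(P.b ^ P.p), 0, freyCurve_eq_ab P,
      Or.inl ⟨hpow ha, by rw [dvd_neg]; exact hpow hb, ?_⟩⟩
    rw [sub_neg_eq_add, P.hFLT]
    exact hpow hc

/-- The Galois-equivariant additive equivalence attached to `E = C • L`. -/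
theorem exists_equivariant_equiv_of_eq (L E : WeierstrassCurve ℚ) (C : VariableChange ℚ)
    (hE : E = C • L) :
    ∃ φ : (L.toAffine⁄Qb).Point ≃+ (E.toAffine⁄Qb).Point,
      ∀ (σ : GQ) (Q : (L.toAffine⁄Qb).Point), φ (σ • Q) = σ • φ Q := by
  subst hE
  exact Fermat.Agent.X015.exists_galois_equivariant_equiv (K := Qb) L C

/-- The Galois-equivariant additive equivalence between the points of a Legendre model and the
points of the Frey curve, packaged with `frey_form`. -/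
theorem frey_form_equiv (P : FreyPackage) {q : ℕ} (hq : q.Prime) :
    ∃ (e r : ℤ) (φ : ((legQ e r).toAffine⁄Qb).Point ≃+ (P.freyCurve.toAffine⁄Qb).Point),
      (∀ (σ : GQ) (Q : ((legQ e r).toAffine⁄Qb).Point), φ (σ • Q) = σ • φ Q) ∧
      ((¬ (q : ℤ) ∣ e ∧ ¬ (q : ℤ) ∣ r ∧ ¬ (q : ℤ) ∣ e - r) ∨
        (∃ ε : ℤ, e = ε ^ P.p ∧ (q : ℤ) ∣ ε ∧ ε ≠ 0 ∧ ¬ (q : ℤ) ∣ r)) := by
  obtain ⟨e, r, ρ, hE, h⟩ := frey_form P hq
  obtain ⟨φ, hφ⟩ := exists_equivariant_equiv_of_eq (legQ e r) P.freyCurve (freyVC ρ) hE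
  exact ⟨e, r, φ, hφ, h⟩

end FreyForm

end Fermat.Agent.S13Lib
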