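/-
P7 / S13, package (D'): an open normal subgroup of `G_ℚ` containing the inertia groups of all
valuation subrings of `ℚ̄` over the primes `q ≠ p` and of ONE valuation subring over `p` is
everything (Minkowski: `ℚ` has no nontrivial everywhere unramified extension).
-/
import Fermat.Agent.Lib.CFT.Bridge.UnramifiedLevel

set_option autoImplicit false
set_option linter.unusedSectionVars false
set_option linter.style.haveILetI false

open NumberField Ideal

namespace Fermat.Agent.S13Lib

open Fermat.Agent.CFT Fermat.Agent.CFT.Global Fermat.Agent.CFT.Bridge ExtCitation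

section NumberFieldPart

variable {F : Type} [Field F] [NumberField F] [IsGalois ℚ F]

/-- In a Galois extension of `ℚ`, if one prime above `q` has trivial inertia group then so do all
primes above `q`. -/
lemma inertia_eq_bot_of_inertia_eq_bot {q : ℕ} [hq : Fact q.Prime] {P₀ P : Ideal (𝓞 F)}
    [P₀.IsPrime] [P.IsPrime] (hP₀ : ((q : ℕ) : 𝓞 F) ∈ P₀) (hP : ((q : ℕ) : 𝓞 F) ∈ P)
    (h : P₀.inertia Gal(F/ℚ) = ⊥) : P.inertia Gal(F/ℚ) = ⊥ := by
  have := liesOver_span_natCast_of_mem hP₀
  have := liesOver_span_natCast_of_mem hP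
  have := (isMaximal_span_natCast_int q).isPrime
  rw [← Subgroup.card_eq_one] at h ⊢
  rw [Ideal.card_inertia_eq_ramificationIdxIn (G := Gal(F/ℚ)) (Ideal.span {((q : ℕ) : ℤ)}) P]
  rw [Ideal.card_inertia_eq_ramificationIdxIn (G := Gal(F/ℚ)) (Ideal.span {((q : ℕ) : ℤ)}) P₀] at h
  exact h

/-- **Minkowski.**  A Galois number field all of whose inertia groups are trivial is `ℚ`. -/
theorem finrank_eq_one_of_forall_inertia_eq_bot
    (h : ∀ (q : ℕ), q.Prime → ∀ (P : Ideal (𝓞 F)) [P.IsPrime], ((q : ℕ) : 𝓞 F) ∈ P →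
      P.inertia Gal(F/ℚ) = ⊥) : Module.finrank ℚ F = 1 := by
  by_contra H
  obtain ⟨q, hq, hram⟩ := NumberField.exists_not_isUnramifiedIn (𝒪 := 𝓞 F) H
  have : Fact q.Prime := ⟨hq⟩
  apply hram
  rw [Algebra.isUnramifiedIn_iff_forall_of_isDedekindDomain]
  intro Q hQmax hQlo
  have hQprime : Q.IsPrime := hQmax.isPrime
  have hq0 : (Ideal.span {((q : ℕ) : ℤ)}) ≠ ⊥ := by
    rw [Ne, Ideal.span_singleton_eq_bot]
    exact_mod_cast hq.ne_zero
  have hQ0 : Q ≠ ⊥ := Ideal.ne_bot_of_liesOver_of_ne_bot hq0 Q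
  have hun : Q.under ℤ ≠ ⊥ := by rw [← hQlo.over]; exact hq0
  have hfin : Finite (ℤ ⧸ Q.under ℤ) := Ring.HasFiniteQuotients.finiteQuotient hun
  have hfin2 : Finite (Q.under ℤ).ResidueField := inferInstance
  rw [← Ideal.ramificationIdx_eq_one_iff]
  have hqQ : ((q : ℕ) : 𝓞 F) ∈ Q := by
    have h1 : ((q : ℕ) : ℤ) ∈ Q.under ℤ := by
      rw [← hQlo.over]
      exact Ideal.subset_span rfl
    rw [Ideal.under_def, Ideal.mem_comap, map_natCast] at h1
    exact h1
  rw [← card_inertia_eq_ramificationIdx hqQ, h q hq Q hqQ]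
  exact Subgroup.card_bot

end NumberFieldPart

/-- If the inertia group of a valuation subring `A` of `ℚ̄` is contained in the fixing subgroup of a
level, then the prime of that level below `A` has trivial inertia group. -/
lemma Level.inertia_primeUnder_eq_bot (L : Level) {A : ValuationSubring Qbar} {q : ℕ}
    (hq : q.Prime) (hA : A.LiesOverPrime q) (h : A.inertiaSubgroupIn ℚ ≤ L.N) :
    Ideal.inertia (↥L.toIntermediateField ≃ₐ[ℚ] ↥L.toIntermediateField)
      (primeUnder L.toIntermediateField A) = ⊥ := by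
  rw [Subgroup.eq_bot_iff_forall]
  intro τ hτ
  obtain ⟨σ, hσ, rfl⟩ := exists_mem_inertiaSubgroupIn_restrictRat_eq L.toIntermediateField
    (Level.normal' L) hq hA hτ
  rw [restrictRat_eq_one_iff]
  exact h hσ

/-- **(D′).**  An open normal subgroup of `G_ℚ` which contains all inertia groups at the primes
`q ≠ p` and the inertia group of one valuation subring over `p` is the whole group. -/
theorem eq_top_of_inertia_le (H : Subgroup GQ) [H.Normal] (hopen : IsOpen (H : Set GQ))
    (p : ℕ) (hp : p.Prime)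
    (hout : ∀ q : ℕ, q.Prime → q ≠ p → ∀ A : ValuationSubring Qbar, A.LiesOverPrime q →
      A.inertiaSubgroupIn ℚ ≤ H)
    (A₀ : ValuationSubring Qbar) (hA₀ : A₀.LiesOverPrime p) (h₀ : A₀.inertiaSubgroupIn ℚ ≤ H) :
    H = ⊤ := by
  obtain ⟨L, rfl⟩ := exists_level_N_eq H hopen
  haveI : NumberField ↥L.toIntermediateField :=
    numberField_of_finiteDimensional _ L.finiteDimensional
  haveI : IsGalois ℚ ↥L.toIntermediateField := isGalois_toRatAlgebra _ L.isGalois
  have hrank : Module.finrank ℚ ↥L.toIntermediateField = 1 := by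
    apply finrank_eq_one_of_forall_inertia_eq_bot
    intro q hq P hP hqP
    haveI : Fact q.Prime := ⟨hq⟩
    by_cases hqp : q = p
    · subst hqp
      exact inertia_eq_bot_of_inertia_eq_bot
        (natCast_mem_primeUnder L.toIntermediateField hA₀) hqP
        (Level.inertia_primeUnder_eq_bot L hq hA₀ h₀)
    · have hP0 : P ≠ ⊥ := by
        rintro rfl
        rw [Ideal.mem_bot] at hqP
        exact hq.ne_zero (by exact_mod_cast hqP)
      obtain ⟨A, rfl⟩ := exists_primeUnder_eq L.toIntermediateField P hP0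
      have hA : A.LiesOverPrime q :=
        liesOverPrime_of_natCast_mem_primeUnder L.toIntermediateField hqP
      exact Level.inertia_primeUnder_eq_bot L hq hA (hout q hq hqp A hA)
  -- a field of degree one over `ℚ` is fixed by everything
  rw [eq_top_iff]
  intro σ _
  change σ ∈ L.toIntermediateField.fixingSubgroup
  rw [← restrictRat_eq_one_iff L.toIntermediateField (Level.normal' L)]
  have hcard : Nat.card (↥L.toIntermediateField ≃ₐ[ℚ] ↥L.toIntermediateField) = 1 := by
    rw [IsGalois.card_aut_eq_finrank ℚ ↥L.toIntermediateField, hrank]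
  have hsub : Subsingleton (↥L.toIntermediateField ≃ₐ[ℚ] ↥L.toIntermediateField) :=
    (Nat.card_eq_one_iff_unique.1 hcard).1
  exact Subsingleton.elim _ _

end Fermat.Agent.S13Lib
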