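import Fermat.Agent.Lib.S13.AtPLeg
import Fermat.Agent.Lib.S13.Glue

/-!
# S13, package (C): the dichotomy at `p` for the Frey curve

Given the depth bound for the Legendre models (`DepthBoundAt`, proved separately from the
multiplication-by-`p` polynomials), inertia at any valuation subring over `p` acts trivially on
a Galois-stable line `N` of `E[p]` or on `E[p] / N`.
-/

set_option autoImplicit false
set_option linter.unusedSectionVars false
set_option linter.unusedVariables false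

open WeierstrassCurve WeierstrassCurve.Affine WeierstrassCurve.Affine.Point

namespace Fermat.Agent.S13Lib

open Fermat.Agent.S05Lib

local notation "Qb" => AlgebraicClosure ℚ
local notation "GQ" => (AlgebraicClosure ℚ ≃ₐ[ℚ] AlgebraicClosure ℚ)

/-- The depth bound for the `q`-torsion of the Legendre curve `legQ e r` at the valuation `v`:
if all nonzero `q`-torsion points lie in the kernel of reduction, the sum of `- ord x(T)` over
them is at most `2`. -/
def DepthBoundAt (v : QVal Qb) (e r : ℤ) (q : ℕ) : Prop :=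
  ∀ hfin : {T : ((legQ e r).toAffine⁄Qb).Point | q • T = 0}.Finite,
    (∀ T : ((legQ e r).toAffine⁄Qb).Point, q • T = 0 → T ≠ 0 → v.Lt (xc T) 0) →
      ∑ T ∈ hfin.toFinset.erase 0, (-(v.ord (xc T))) ≤ 2

/-- **Package (C)**: the dichotomy at `p` for the Frey curve, from the count `|E[p]| = p²` and
the depth bound for the Legendre models. -/
theorem frey_atP_dichotomy (P : FreyPackage)
    (hcard : Nat.card (Tors P.freyCurve P.p) = P.p ^ 2)
    (hbound : ∀ e r : ℤ, e ≠ 0 → r ≠ 0 → e ≠ r → ∀ (A : ValuationSubring Qb) (v : QVal Qb),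
      QValFor A P.p v → v.ord ((P.p : ℕ) : Qb) = 1 → DepthBoundAt v e r P.p)
    (N : Submodule (ZMod P.p) (Tors P.freyCurve P.p)) (hN : IsGaloisStable ℚ N)
    (hbot : N ≠ ⊥) (htop : N ≠ ⊤)
    (A : ValuationSubring Qb) (hA : A.LiesOverPrime P.p) :
    (∀ σ ∈ A.inertiaSubgroupIn ℚ, ∀ y ∈ N, σ • y = y) ∨
      (∀ σ ∈ A.inertiaSubgroupIn ℚ, ∀ x : Tors P.freyCurve P.p, σ • x - x ∈ N) := by
  classical
  have hq : P.p.Prime := P.pp
  have hq2 : P.p ≠ 2 := by have := P.hp5; omega
  have hqZ : Prime (P.p : ℤ) := Nat.prime_iff_prime_int.mp hq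
  obtain ⟨v, hv, hq1⟩ := exists_qvalFor_normalized A hq hA
  obtain ⟨e, r, φ, hφ, hcase⟩ := frey_form_equiv P hq
  have hW := isLeg_legQ e r
  obtain ⟨ha, hb⟩ := legQ_integral hv e r
  -- finiteness and cardinality of the torsion of the Legendre model
  have hc : Nat.card {T : ((legQ e r).toAffine⁄Qb).Point // P.p • T = 0} = P.p ^ 2 := by
    rw [natCard_torsion_eq φ, hcard]
  have hfinT : Finite {T : ((legQ e r).toAffine⁄Qb).Point // P.p • T = 0} :=
    Nat.finite_of_card_ne_zero (by rw [hc]; exact pow_ne_zero _ hq.ne_zero)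
  have hfin : {T : ((legQ e r).toAffine⁄Qb).Point | P.p • T = 0}.Finite := hfinT
  have hcard' : hfin.toFinset.card = P.p ^ 2 := by
    rw [← hc, ← Set.ncard_eq_toFinset_card _ hfin, ← Nat.card_coe_set_eq]
    rfl
  -- the three nondegeneracy conditions and P1
  have hne : e ≠ 0 ∧ r ≠ 0 ∧ e ≠ r := by
    rcases hcase with ⟨he, hr, her⟩ | ⟨ε, rfl, hε, hε0, hr⟩
    · refine ⟨fun h => he (h ▸ dvd_zero _), fun h => hr (h ▸ dvd_zero _), fun h => her ?_⟩
      rw [h, sub_self]; exact dvd_zero _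
    · refine ⟨pow_ne_zero _ hε0, fun h => hr (h ▸ dvd_zero _), fun h => hr ?_⟩
      rw [← h]
      exact dvd_pow hε P.hp0
  have hP1 : ∀ σ ∈ A.inertiaSubgroupIn ℚ, ∀ x : ((legQ e r).toAffine⁄Qb).Point, P.p • x = 0 →
      ∃ τ : ℚ, 0 < τ ∧ InE v τ (σ • x - x) := by
    intro σ hσ x hx
    rcases hcase with ⟨he, hr, her⟩ | ⟨ε, rfl, hε, hε0, hr⟩
    · exact leg_map_sub_inE_good hv hq hq2 hσ he hr her x
    · exact leg_map_sub_inE_node hv hq hq2 hσ hε hε0 hr P.hp0 x hx
  have hbd := hbound e r hne.1 hne.2.1 hne.2.2 A v hv hq1 hfin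
  -- the transported subgroup
  have hNV : ∀ T ∈ pullTors φ N, P.p • T = 0 := fun T hT => nsmul_eq_zero_of_mem_pullTors hT
  have hstab : ∀ σ : GQ, ∀ T ∈ pullTors φ N, σ • T ∈ pullTors φ N :=
    fun σ T hT => smul_mem_pullTors hφ hN σ hT
  have hbot' : pullTors φ N ≠ ⊥ := by
    obtain ⟨Q, hQ, hQ0⟩ := exists_mem_pullTors_ne_zero (φ := φ) hbot
    intro h
    rw [h, AddSubgroup.mem_bot] at hQ
    exact hQ0 hQ
  have htop' : ∃ T : ((legQ e r).toAffine⁄Qb).Point, P.p • T = 0 ∧ T ∉ pullTors φ N :=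
    exists_torsion_notMem_pullTors (φ := φ) htop
  rcases dichotomy_of_local hv hq hq1 hq2 hW ha hb hfin hcard' hP1 hbd (pullTors φ N) hNV hstab
    hbot' htop' with h | h
  · left
    intro σ hσ
    exact smul_eq_of_pullTors hφ (h σ hσ)
  · right
    intro σ hσ
    exact smul_sub_mem_of_pullTors hφ (h σ hσ)

end Fermat.Agent.S13Lib
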