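/-
P7 / S13, assembly: the statement of S13 from the packages (A) `card E[p] = p²`,
(B1) unipotent inertia at `2`, (B2) no rational `p`-torsion, (C) the dichotomy at `p`,
(D′) Minkowski (`eq_top_of_inertia_le`) and S05.
-/
import Fermat.Agent.Lib.S13.Glue
import Fermat.Agent.Lib.S13.GlobalTrivial
import Fermat.Agent.Lib.S05.QValQbar
import Fermat.Agent.Lib.Helper6.FrobeniusExists

set_option autoImplicit false
set_option linter.unusedSectionVars false
set_option linter.unusedVariables false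

open WeierstrassCurve WeierstrassCurve.Affine WeierstrassCurve.Affine.Point

namespace Fermat.Agent.S13Lib.Assembly

local notation "Qb" => AlgebraicClosure ℚ
local notation "GQ" => (AlgebraicClosure ℚ ≃ₐ[ℚ] AlgebraicClosure ℚ)

section LinearAlgebra

variable {V : Type*} [AddCommGroup V] {p : ℕ}

/-- A proper nonzero subgroup of a group of order `p²` has order `p`. -/
lemma natCard_eq_prime_of_ne (hp : p.Prime) (hV : Nat.card V = p ^ 2) (N : AddSubgroup V)
    (hbot : N ≠ ⊥) (htop : N ≠ ⊤) : Nat.card N = p := by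
  have : Finite V := Nat.finite_of_card_ne_zero (by rw [hV]; exact pow_ne_zero _ hp.ne_zero)
  have hdvd : Nat.card N ∣ p ^ 2 := hV ▸ AddSubgroup.card_addSubgroup_dvd_card N
  obtain ⟨m, hm, e⟩ := (Nat.dvd_prime_pow hp).mp hdvd
  interval_cases m
  · exfalso
    apply hbot
    rw [pow_zero] at e
    exact (AddSubgroup.card_eq_one).mp e
  · rwa [pow_one] at e
  · exfalso
    apply htop
    exact AddSubgroup.card_eq_iff_eq_top N |>.mp (by rw [e, hV])

/-- A subgroup of `V` (of order `p²`) containing a subgroup `N` of order `p` is `N` or `⊤`. -/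
lemma eq_or_eq_top_of_le (hp : p.Prime) (hV : Nat.card V = p ^ 2) {N M : AddSubgroup V}
    (hN : Nat.card N = p) (hNM : N ≤ M) : M = N ∨ M = ⊤ := by
  have : Finite V := Nat.finite_of_card_ne_zero (by rw [hV]; exact pow_ne_zero _ hp.ne_zero)
  have hdvd : Nat.card M ∣ p ^ 2 := hV ▸ AddSubgroup.card_addSubgroup_dvd_card M
  obtain ⟨m, hm, e⟩ := (Nat.dvd_prime_pow hp).mp hdvd
  have hNM' : Nat.card N ∣ Nat.card M := AddSubgroup.card_dvd_of_le hNM
  interval_cases m
  · exfalso
    rw [hN, e, pow_zero] at hNM'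
    exact hp.one_lt.ne' (Nat.dvd_one.mp hNM')
  · left
    rw [pow_one] at e
    symm
    apply AddSubgroup.eq_of_le_of_card_ge hNM
    rw [e, hN]
  · right
    exact AddSubgroup.card_eq_iff_eq_top M |>.mp (by rw [e, hV])

/-- A square-zero additive endomorphism `T` of a group of order `p²` preserving a proper nonzero
subgroup `N` kills `N` and maps everything into `N`. -/
theorem sq_zero_on_flag (hp : p.Prime) (hV : Nat.card V = p ^ 2) (N : AddSubgroup V)
    (hbot : N ≠ ⊥) (htop : N ≠ ⊤) (T : V →+ V) (hT : ∀ x, T (T x) = 0)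
    (hTN : ∀ y ∈ N, T y ∈ N) : (∀ y ∈ N, T y = 0) ∧ ∀ x, T x ∈ N := by
  have : Finite V := Nat.finite_of_card_ne_zero (by rw [hV]; exact pow_ne_zero _ hp.ne_zero)
  have hN := natCard_eq_prime_of_ne hp hV N hbot htop
  constructor
  · -- `K = N ⊓ ker T` is `N`
    set K : AddSubgroup V := N ⊓ T.ker with hK
    have hKN : K ≤ N := inf_le_left
    have hdvd : Nat.card K ∣ p := hN ▸ AddSubgroup.card_dvd_of_le hKN
    rcases (Nat.dvd_prime hp).mp hdvd with h1 | h1
    · exfalso
      have hKbot : K = ⊥ := AddSubgroup.card_eq_one.mp h1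
      obtain ⟨y, hy, hy0⟩ := (N.bot_or_exists_ne_zero).resolve_left hbot
      have h2 : T y ∈ K := ⟨hTN y hy, (AddMonoidHom.mem_ker).mpr (hT y)⟩
      rw [hKbot, AddSubgroup.mem_bot] at h2
      have h3 : y ∈ K := ⟨hy, (AddMonoidHom.mem_ker).mpr h2⟩
      rw [hKbot, AddSubgroup.mem_bot] at h3
      exact hy0 h3
    · have hKeq : K = N := AddSubgroup.eq_of_le_of_card_ge hKN (by rw [h1, hN])
      intro y hy
      have : y ∈ K := hKeq ▸ hy
      exact (AddMonoidHom.mem_ker).mp this.2
  · -- `M = T⁻¹ N` is `⊤`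
    set M : AddSubgroup V := N.comap T with hM
    have hNM : N ≤ M := fun y hy => hTN y hy
    rcases eq_or_eq_top_of_le hp hV hN hNM with h1 | h1
    · exfalso
      obtain ⟨x, hx⟩ : ∃ x : V, x ∉ N := by
        by_contra hcon
        push Not at hcon
        exact htop (eq_top_iff.mpr fun x _ => hcon x)
      have hx' : T x ∉ N := by
        intro h
        apply hx
        rw [← h1]
        exact h
      apply hx'
      rw [← h1]
      show T (T x) ∈ N
      rw [hT]
      exact N.zero_mem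
    · intro x
      have : x ∈ M := h1 ▸ AddSubgroup.mem_top x
      exact this

end LinearAlgebra

section Assembly

open Fermat.Agent.S05Lib

variable (P : FreyPackage)

/-- A unipotent element acts trivially on a stable line and on the quotient. -/
theorem trivial_of_unipotent (hcard : Nat.card (Tors P.freyCurve P.p) = P.p ^ 2)
    (N : Submodule (ZMod P.p) (Tors P.freyCurve P.p)) (hN : IsGaloisStable ℚ N)
    (hbot : N ≠ ⊥) (htop : N ≠ ⊤) (σ : GQ)
    (hσ : ∀ x : Tors P.freyCurve P.p, σ • (σ • x - x) = σ • x - x) :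
    (∀ y ∈ N, σ • y = y) ∧ ∀ x : Tors P.freyCurve P.p, σ • x - x ∈ N := by
  let T : Tors P.freyCurve P.p →+ Tors P.freyCurve P.p :=
    DistribSMul.toAddMonoidHom (Tors P.freyCurve P.p) σ - AddMonoidHom.id _
  have hTx : ∀ x, T x = σ • x - x := fun x => rfl
  have hbot' : N.toAddSubgroup ≠ ⊥ := by
    intro h
    apply hbot
    rw [eq_bot_iff]
    intro y hy
    have : y ∈ N.toAddSubgroup := hy
    rw [h, AddSubgroup.mem_bot] at this
    rw [this]
    exact Submodule.zero_mem _
  have htop' : N.toAddSubgroup ≠ ⊤ := by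
    intro h
    apply htop
    rw [eq_top_iff]
    intro y _
    have : y ∈ N.toAddSubgroup := h ▸ AddSubgroup.mem_top y
    exact this
  obtain ⟨h1, h2⟩ := sq_zero_on_flag P.pp hcard N.toAddSubgroup hbot' htop' T
    (fun x => by rw [hTx (T x), hTx x, hσ, sub_self])
    (fun y hy => by rw [hTx]; exact N.sub_mem (hN σ y hy) hy)
  refine ⟨fun y hy => ?_, fun x => ?_⟩
  · have := h1 y hy
    rw [hTx] at this
    exact sub_eq_zero.mp this
  · have := h2 x
    rwa [hTx] at this

/-- **S13 from the packages.** -/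
theorem hasCofixedLine_of_packages
    (hcard : Nat.card (Tors P.freyCurve P.p) = P.p ^ 2)
    (hB1 : ∀ A : ValuationSubring Qb, A.LiesOverPrime 2 → ∀ σ ∈ A.inertiaSubgroupIn ℚ,
      ∀ x : Tors P.freyCurve P.p, σ • (σ • x - x) = σ • x - x)
    (hB2 : ∀ x : Tors P.freyCurve P.p, (∀ σ : GQ, σ • x = x) → x = 0)
    (hC : ∀ N : Submodule (ZMod P.p) (Tors P.freyCurve P.p), IsGaloisStable ℚ N → N ≠ ⊥ → N ≠ ⊤ →
      ∀ A : ValuationSubring Qb, A.LiesOverPrime P.p →
        (∀ σ ∈ A.inertiaSubgroupIn ℚ, ∀ y ∈ N, σ • y = y) ∨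
        (∀ σ ∈ A.inertiaSubgroupIn ℚ, ∀ x : Tors P.freyCurve P.p, σ • x - x ∈ N))
    (hred : ¬ GaloisRepIsIrreducible (K := Qb) ℚ P.freyCurve.toAffine P.p) :
    HasGaloisStableCofixedLine (K := Qb) ℚ P.freyCurve.toAffine P.p := by
  have hp := P.pp
  have hfin : Finite (Tors P.freyCurve P.p) :=
    Nat.finite_of_card_ne_zero (by rw [hcard]; exact pow_ne_zero _ hp.ne_zero)
  have hnt : Nontrivial (Tors P.freyCurve P.p) := by
    rw [← Finite.one_lt_card_iff_nontrivial, hcard]
    exact Nat.one_lt_pow two_ne_zero hp.one_lt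
  -- a stable line
  obtain ⟨N, hN, hbot, htop⟩ : ∃ N : Submodule (ZMod P.p) (Tors P.freyCurve P.p),
      IsGaloisStable ℚ N ∧ N ≠ ⊥ ∧ N ≠ ⊤ := by
    by_contra hcon
    apply hred
    refine ⟨hnt, fun N hN => ?_⟩
    by_contra h
    push Not at h
    exact hcon ⟨N, hN, h.1, h.2⟩
  -- inertia away from `p` acts trivially on `N` and on the quotient
  have hout : ∀ q : ℕ, q.Prime → q ≠ P.p → ∀ A : ValuationSubring Qb, A.LiesOverPrime q →
      ∀ σ ∈ A.inertiaSubgroupIn ℚ,
        (∀ y ∈ N, σ • y = y) ∧ ∀ x : Tors P.freyCurve P.p, σ • x - x ∈ N := by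
    intro q hq hqp A hA σ hσ
    by_cases hq2 : q = 2
    · subst hq2
      exact trivial_of_unipotent P hcard N hN hbot htop σ (hB1 A hA σ hσ)
    · obtain ⟨v, h1, h2, h3, h4, h5⟩ := exists_qval_of_liesOver A hq hA
      have hfix : ∀ x : Tors P.freyCurve P.p, σ • x = x :=
        fun x => frey_unramified P hq hq2 hqp ⟨h1, h2, h3, h4, h5⟩ hσ x
      refine ⟨fun y _ => hfix y, fun x => ?_⟩
      rw [hfix x, sub_self]
      exact N.zero_mem
  obtain ⟨A₀, hA₀⟩ := Fermat.Agent.Lib.Helper6.exists_valuationSubring_liesOverPrime Qb hp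
  rcases hC N hN hbot htop A₀ hA₀ with hcase | hcase
  · -- `N` is fixed pointwise by `G_ℚ`: impossible
    exfalso
    have := fixSub_normal N hN
    have htopH : fixSub N = ⊤ :=
      eq_top_of_inertia_le (fixSub N) (isOpen_fixSub N) P.p hp
        (fun q hq hqp A hA σ hσ => (hout q hq hqp A hA σ hσ).1) A₀ hA₀
        (fun σ hσ => hcase σ hσ)
    obtain ⟨y, hy, hy0⟩ := (Submodule.ne_bot_iff N).mp hbot
    apply hy0
    apply hB2
    intro σ
    have : σ ∈ fixSub N := htopH ▸ Subgroup.mem_top σ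
    exact this y hy
  · -- `G_ℚ` acts trivially on the quotient: `N` is a cofixed line
    have := quotFixSub_normal N hN
    have htopH : quotFixSub N hN = ⊤ :=
      eq_top_of_inertia_le (quotFixSub N hN) (isOpen_quotFixSub N hN) P.p hp
        (fun q hq hqp A hA σ hσ => (hout q hq hqp A hA σ hσ).2) A₀ hA₀
        (fun σ hσ => hcase σ hσ)
    refine ⟨N, hN, hbot, htop, fun σ x => ?_⟩
    have : σ ∈ quotFixSub N hN := htopH ▸ Subgroup.mem_top σ
    exact this x

end Assembly

end Fermat.Agent.S13Lib.Assembly
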