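import Fermat.Agent.Lib.S13.AtP2

/-!
# S13, package (C), part P2 (local, continued): the depth bound from the norm identity alone

With `T₀ = (0,0)` and `x(P + T₀) = b / x(P)`, evaluating the norm identity
`∏_{T ∈ E[p]} x(Q + T) = c · x(pQ)` at a deep point `D` and at `D + T₀` gives
`2 ord c = (|E[p]| - 1) ord b ≥ 0`, hence `∑_{T ≠ 0} (- ord x(T)) = 2 - ord c ≤ 2`.
-/

set_option autoImplicit false
set_option linter.unusedSectionVars false
set_option linter.unusedVariables false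

open WeierstrassCurve WeierstrassCurve.Affine

namespace Fermat.Agent.S13Lib

open Fermat.Agent.S05Lib

variable {K : Type*} [Field K] [DecidableEq K]

section

variable {v : QVal K} {W : WeierstrassCurve K} {a b : K}

/-- `(0,0)` is a nonsingular point when `b ≠ 0` -/
lemma nonsingular_zero_zero (hW : IsLeg W a b) (hb0 : b ≠ 0) : W.toAffine.Nonsingular 0 0 := by
  rw [Affine.nonsingular_zero]
  exact ⟨hW.a₆, Or.inr (by rw [hW.a₄]; exact hb0)⟩

/-- the `2`-torsion point `T₀ = (0,0)` -/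
noncomputable def pt00 (hW : IsLeg W a b) (hb0 : b ≠ 0) : W.toAffine.Point :=
  Point.some 0 0 (nonsingular_zero_zero hW hb0)

lemma two_nsmul_pt00 (hW : IsLeg W a b) (hb0 : b ≠ 0) : 2 • pt00 hW hb0 = 0 := by
  rw [two_nsmul]
  exact hW.add_self_of_Y_eq_zero _

lemma odd_nsmul_pt00 (hW : IsLeg W a b) (hb0 : b ≠ 0) {n : ℕ} (hn : Odd n) :
    n • pt00 hW hb0 = pt00 hW hb0 := by
  obtain ⟨k, rfl⟩ := hn
  rw [add_smul, mul_comm, mul_smul, two_nsmul_pt00, nsmul_zero, zero_add, one_smul]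

/-- translation by `T₀`: `x(P + T₀) = b / x(P)` as soon as `x(P) ≠ 0` -/
lemma xc_add_pt00 (hW : IsLeg W a b) (hb0 : b ≠ 0) {P : W.toAffine.Point} (hP : xc P ≠ 0) :
    xc (P + pt00 hW hb0) = b / xc P := by
  rcases P with _ | ⟨x, y, hxy⟩
  · exact absurd rfl hP
  · have hx : x ≠ 0 := hP
    obtain ⟨w, h', e⟩ := hW.add_of_X_ne hxy (nonsingular_zero_zero hW hb0) hx
    unfold pt00
    rw [e]
    show ((y - 0) / (x - 0)) ^ 2 - a - x - 0 = b / x
    have q := hW.eq_of_nonsingular hxy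
    rw [sub_zero, sub_zero, sub_zero, div_pow, q]
    field_simp
    ring

/-- evaluation of the norm identity at a deep point: `ord c = 2 - ∑ depth`. -/
theorem ord_const_eq (hW : IsLeg W a b) (ha : v.Ge a 0) (hb : v.Ge b 0)
    (h2 : v.Is (2 : K) 0) (hsq : ∀ z : K, ∃ y, y ^ 2 = z) {p : ℕ} (hp : v.Is (p : K) 1)
    (hpodd : Odd p) (hb0 : b ≠ 0)
    (Vp : Finset W.toAffine.Point) (h0V : (0 : W.toAffine.Point) ∈ Vp)
    {c : K} (hc : c ≠ 0)
    (hstar : ∀ Q : W.toAffine.Point, (∀ T ∈ Vp, 2 • Q ≠ T) →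
      ∏ T ∈ Vp, xc (Q + T) = c * xc (p • Q))
    (hker : ∀ T ∈ Vp, T ≠ 0 → v.Lt (xc T) 0) :
    v.ord c = 2 - ∑ T ∈ Vp.erase 0, (-(v.ord (xc T))) ∧
      v.ord c = ((Vp.card : ℚ) - 1) * v.ord b + ∑ T ∈ Vp.erase 0, (-(v.ord (xc T))) - 2 := by
  classical
  set S := Vp.erase 0 with hS
  set sm := ∑ T ∈ S, (-(v.ord (xc T))) with hsm
  have hpos : ∀ T ∈ S, 0 < -(v.ord (xc T)) := by
    intro T hT
    have := hker T (Finset.mem_of_mem_erase hT) (Finset.ne_of_mem_erase hT)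
    linarith [this.2]
  have hle : ∀ T ∈ S, -(v.ord (xc T)) ≤ sm := fun T hT =>
    Finset.single_le_sum (fun i hi => (hpos i hi).le) hT
  have hsm0 : 0 ≤ sm := Finset.sum_nonneg (fun i hi => (hpos i hi).le)
  obtain ⟨m, hm⟩ : ∃ m : ℕ, 2 + sm < m := exists_nat_gt _
  have hm0 : 0 < m := by
    have : (0 : ℚ) < m := by linarith
    exact_mod_cast this
  have hm2 : (2 : ℚ) < m := by linarith
  obtain ⟨D, hD⟩ := exists_deep_point hW ha hb h2 hsq hp m hm0
  have hmpos : (0 : ℚ) < m := by linarith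
  have h2D : v.Is (xc (2 • D)) (-((m : ℚ) + 2 * 0)) :=
    is_xc_nsmul hW ha hb h2 (n := 2) (by exact_mod_cast h2) hmpos (by linarith) hD
  have hcondD : ∀ T ∈ Vp, 2 • D ≠ T := by
    intro T hT hTQ
    have hT0 : T ≠ 0 := by
      rw [← hTQ]
      exact ne_zero_of_xc_ne_zero h2D.1
    have hTS : T ∈ S := Finset.mem_erase.mpr ⟨hT0, hT⟩
    have h1 := hle T hTS
    rw [← hTQ, h2D.2] at h1
    linarith
  -- the depth of `D + T`
  have hfac : ∀ T ∈ S, v.Is (xc (D + T)) (v.ord (xc T)) := by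
    intro T hT
    have hTk := hker T (Finset.mem_of_mem_erase hT) (Finset.ne_of_mem_erase hT)
    have hTis : v.Is (xc T) (-(-(v.ord (xc T)))) := by
      rw [neg_neg]; exact hTk.is
    have hlt : -(v.ord (xc T)) < (m : ℚ) := by
      have := hle T hT
      linarith
    have := is_xc_add hW ha hb h2 (hpos T hT) hlt hTis hD
    rw [neg_neg, add_comm] at this
    exact this
  have hpD : v.Is (xc (p • D)) (-((m : ℚ) + 2 * 1)) :=
    is_xc_nsmul hW ha hb h2 hp hmpos (by linarith) hD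
  have hDT : ∀ T ∈ Vp, v.Is (xc (D + T)) (if T = 0 then -(m : ℚ) else v.ord (xc T)) := by
    intro T hT
    by_cases hT0 : T = 0
    · rw [if_pos hT0, hT0, add_zero]; exact hD
    · rw [if_neg hT0]; exact hfac T (Finset.mem_erase.mpr ⟨hT0, hT⟩)
  have hsumif : ∑ T ∈ Vp, (if T = 0 then -(m : ℚ) else v.ord (xc T)) = -(m : ℚ) - sm := by
    rw [← Finset.add_sum_erase Vp _ h0V, if_pos rfl, hsm, Finset.sum_neg_distrib]
    have : ∑ T ∈ Vp.erase 0, (if T = 0 then -(m : ℚ) else v.ord (xc T)) =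
        ∑ T ∈ S, v.ord (xc T) :=
      Finset.sum_congr rfl (fun T hT => by rw [if_neg (Finset.ne_of_mem_erase hT)])
    rw [this]
    ring
  constructor
  · -- evaluation at `D`
    have key := hstar D hcondD
    have hne : ∀ T ∈ Vp, xc (D + T) ≠ 0 := fun T hT => (hDT T hT).1
    have hL : v.ord (∏ T ∈ Vp, xc (D + T)) = -(m : ℚ) - sm := by
      rw [ord_prod Vp _ hne, ← hsumif]
      exact Finset.sum_congr rfl (fun T hT => (hDT T hT).2)
    rw [key, v.ord_mul' hc hpD.1, hpD.2] at hL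
    linarith
  · -- evaluation at `D + T₀`
    set T0 := pt00 hW hb0 with hT0
    have hcondD' : ∀ T ∈ Vp, 2 • (D + T0) ≠ T := by
      intro T hT
      rw [nsmul_add, two_nsmul_pt00, add_zero]
      exact hcondD T hT
    have key := hstar (D + T0) hcondD'
    have hbis : v.Is b (v.ord b) := QVal.is_ord hb0
    have hfac' : ∀ T ∈ Vp, v.Is (xc (D + T0 + T))
        (v.ord b - (if T = 0 then -(m : ℚ) else v.ord (xc T))) := by
      intro T hT
      have e : D + T0 + T = (D + T) + T0 := by abel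
      rw [e, xc_add_pt00 hW hb0 (hDT T hT).1]
      exact hbis.div (hDT T hT)
    have hne : ∀ T ∈ Vp, xc (D + T0 + T) ≠ 0 := fun T hT => (hfac' T hT).1
    have hL : v.ord (∏ T ∈ Vp, xc (D + T0 + T)) = (Vp.card : ℚ) * v.ord b - (-(m : ℚ) - sm) := by
      rw [ord_prod Vp _ hne, ← hsumif,
        Finset.sum_congr rfl (fun T hT => (hfac' T hT).2), Finset.sum_sub_distrib,
        Finset.sum_const, nsmul_eq_mul]
    have hR : v.Is (xc (p • (D + T0))) (v.ord b - (-((m : ℚ) + 2 * 1))) := by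
      rw [nsmul_add, odd_nsmul_pt00 hW hb0 hpodd, xc_add_pt00 hW hb0 hpD.1]
      exact hbis.div hpD
    rw [key, v.ord_mul' hc hR.1, hR.2] at hL
    linarith

/-- **The depth bound** from the norm identity alone. -/
theorem sum_depth_le_two (hW : IsLeg W a b) (ha : v.Ge a 0) (hb : v.Ge b 0)
    (h2 : v.Is (2 : K) 0) (hsq : ∀ z : K, ∃ y, y ^ 2 = z) {p : ℕ} (hp : v.Is (p : K) 1)
    (hpodd : Odd p) (hb0 : b ≠ 0)
    (Vp : Finset W.toAffine.Point) (h0V : (0 : W.toAffine.Point) ∈ Vp)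
    {c : K} (hc : c ≠ 0)
    (hstar : ∀ Q : W.toAffine.Point, (∀ T ∈ Vp, 2 • Q ≠ T) →
      ∏ T ∈ Vp, xc (Q + T) = c * xc (p • Q))
    (hker : ∀ T ∈ Vp, T ≠ 0 → v.Lt (xc T) 0) :
    ∑ T ∈ Vp.erase 0, (-(v.ord (xc T))) ≤ 2 := by
  obtain ⟨h1, h2'⟩ := ord_const_eq hW ha hb h2 hsq hp hpodd hb0 Vp h0V hc hstar hker
  have hβ : 0 ≤ v.ord b := by
    rcases hb with h | h
    · exact absurd h hb0
    · exact h
  have hcard : (1 : ℚ) ≤ Vp.card := by
    have : 0 < Vp.card := Finset.card_pos.mpr ⟨0, h0V⟩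
    exact_mod_cast this
  have : 0 ≤ ((Vp.card : ℚ) - 1) * v.ord b := mul_nonneg (by linarith) hβ
  linarith

end

end Fermat.Agent.S13Lib
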