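import Fermat.Agent.Lib.S13.AtPGlobal

/-!
# S13, package (C): the dichotomy at `p` (abstract form)

For a Legendre curve `L` over `ℚ`, integral at a valuation `v` over the odd prime `q`, whose
`q`-torsion `V` has `q²` elements, and a Galois-stable subgroup `N` of `V` with `N ≠ 0, V`:
given (P1) `σ x - x ∈ V₁ := V ∩ (kernel of reduction)` for inertia elements `σ`, and the depth
bound `∑_{T ∈ V ∖ 0} (- ord x(T)) ≤ 2` in case `V ⊆` kernel of reduction, inertia acts trivially
on `N` or on `V / N`.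
-/

set_option autoImplicit false
set_option linter.unusedSectionVars false
set_option linter.unusedVariables false

open WeierstrassCurve WeierstrassCurve.Affine WeierstrassCurve.Affine.Point

namespace Fermat.Agent.S13Lib

open Fermat.Agent.S05Lib

local notation "Qb" => AlgebraicClosure ℚ

/-- pure group theory: in a group of order `p²`, two subgroups `N, V₁`, `N ≠ 0, V`, `V₁ ≠ V`,
either meet trivially or coincide -/
lemma subgroup_dichotomy {G : Type*} [AddCommGroup G] {p : ℕ} (hp : p.Prime)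
    (Vp N V1 : AddSubgroup G) [Finite Vp] (hcard : Nat.card Vp = p ^ 2)
    (hN : N ≤ Vp) (hV1 : V1 ≤ Vp) (hNbot : N ≠ ⊥) (hNtop : N ≠ Vp) (hV1top : V1 ≠ Vp) :
    N ⊓ V1 = ⊥ ∨ V1 = N := by
  have : Finite N := Finite.of_injective _ (AddSubgroup.inclusion_injective hN)
  have : Finite V1 := Finite.of_injective _ (AddSubgroup.inclusion_injective hV1)
  have : Finite (N ⊓ V1 : AddSubgroup G) :=
    Finite.of_injective _ (AddSubgroup.inclusion_injective (inf_le_left : N ⊓ V1 ≤ N))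
  have key : ∀ H : AddSubgroup G, H ≤ Vp → H ≠ Vp → Nat.card H = 1 ∨ Nat.card H = p := by
    intro H hH hne
    have hd : Nat.card H ∣ p ^ 2 := hcard ▸ AddSubgroup.card_dvd_of_le hH
    obtain ⟨i, hi, hHi⟩ := (Nat.dvd_prime_pow hp).mp hd
    interval_cases i
    · left; simpa using hHi
    · right; simpa using hHi
    · exfalso
      apply hne
      apply AddSubgroup.eq_of_le_of_card_ge hH
      rw [hcard, hHi]
  have hNcard : Nat.card N = p := by
    rcases key N hN hNtop with h | h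
    · exact absurd (AddSubgroup.card_eq_one.mp h) hNbot
    · exact h
  have hI : Nat.card (N ⊓ V1 : AddSubgroup G) = 1 ∨ Nat.card (N ⊓ V1 : AddSubgroup G) = p := by
    have hd : Nat.card (N ⊓ V1 : AddSubgroup G) ∣ p :=
      hNcard ▸ AddSubgroup.card_dvd_of_le (inf_le_left : N ⊓ V1 ≤ N)
    exact (Nat.dvd_prime hp).mp hd
  rcases hI with h | h
  · left
    exact AddSubgroup.card_eq_one.mp h
  · right
    have h1 : N ⊓ V1 = N :=
      AddSubgroup.eq_of_le_of_card_ge inf_le_left (by rw [h, hNcard])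
    have hNV1 : N ≤ V1 := by rw [← h1]; exact inf_le_right
    have hV1card : Nat.card V1 = p := by
      rcases key V1 hV1 hV1top with h' | h'
      · exfalso
        have := AddSubgroup.card_eq_one.mp h'
        rw [this] at hNV1
        exact hNbot (le_bot_iff.mp hNV1)
      · exact h'
    exact (AddSubgroup.eq_of_le_of_card_ge hNV1 (by rw [hV1card, hNcard])).symm

section dich

variable {A : ValuationSubring Qb} {q : ℕ} {v : QVal Qb} (hv : QValFor A q v)
  (hq : q.Prime) (hq1 : v.ord ((q : ℕ) : Qb) = 1) (hq2 : q ≠ 2)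
  {L : WeierstrassCurve ℚ} {a b : Qb} (hW : IsLeg (L.toAffine⁄Qb) a b)
  (ha : v.Ge a 0) (hb : v.Ge b 0)
include hv hq hq1 hq2 hW ha hb

/-- the `q`-torsion points in the kernel of reduction -/
def kerTorsion (v : QVal Qb) (L : WeierstrassCurve ℚ) (q : ℕ) : Set (L.toAffine⁄Qb).Point :=
  {T | q • T = 0 ∧ ∃ τ : ℚ, 0 < τ ∧ InE v τ T}

omit hq1 in
lemma kerTorsion_add {T T' : (L.toAffine⁄Qb).Point} (h : T ∈ kerTorsion v L q)
    (h' : T' ∈ kerTorsion v L q) : T + T' ∈ kerTorsion v L q := by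
  obtain ⟨h1, τ, hτ, i⟩ := h
  obtain ⟨h1', τ', hτ', i'⟩ := h'
  refine ⟨by rw [nsmul_add, h1, h1', add_zero], min τ τ', lt_min hτ hτ', ?_⟩
  exact (inE_add_sub hW ha hb (hv.is_two hq hq2) (lt_min hτ hτ') (i.mono (min_le_left _ _))
    (i'.mono (min_le_right _ _))).1

omit hq1 in
lemma kerTorsion_neg {T : (L.toAffine⁄Qb).Point} (h : T ∈ kerTorsion v L q) :
    -T ∈ kerTorsion v L q := by
  obtain ⟨h1, τ, hτ, i⟩ := h
  exact ⟨by rw [neg_nsmul, h1, _root_.neg_zero], τ, hτ, i.neg hW⟩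

/-- **The dichotomy at `q`** (abstract form). -/
theorem dichotomy_of_local
    (hfin : {T : (L.toAffine⁄Qb).Point | q • T = 0}.Finite)
    (hcard : hfin.toFinset.card = q ^ 2)
    (hP1 : ∀ σ ∈ A.inertiaSubgroupIn ℚ, ∀ x : (L.toAffine⁄Qb).Point, q • x = 0 →
      ∃ τ : ℚ, 0 < τ ∧ InE v τ (σ • x - x))
    (hbound : (∀ T : (L.toAffine⁄Qb).Point, q • T = 0 → T ≠ 0 → v.Lt (xc T) 0) →
      ∑ T ∈ hfin.toFinset.erase 0, (-(v.ord (xc T))) ≤ 2)
    (N : AddSubgroup (L.toAffine⁄Qb).Point) (hNV : ∀ T ∈ N, q • T = 0)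
    (hstab : ∀ σ : Qb ≃ₐ[ℚ] Qb, ∀ T ∈ N, σ • T ∈ N) (hbot : N ≠ ⊥)
    (htop : ∃ T : (L.toAffine⁄Qb).Point, q • T = 0 ∧ T ∉ N) :
    (∀ σ ∈ A.inertiaSubgroupIn ℚ, ∀ y ∈ N, σ • y = y) ∨
      (∀ σ ∈ A.inertiaSubgroupIn ℚ, ∀ x : (L.toAffine⁄Qb).Point, q • x = 0 → σ • x - x ∈ N) := by
  classical
  have h2 := hv.is_two hq hq2
  have hqodd : ¬ 2 ∣ q := fun h => hq2 ((Nat.prime_dvd_prime_iff_eq Nat.prime_two hq).mp h).symm
  -- the torsion subgroup
  let Vp : AddSubgroup (L.toAffine⁄Qb).Point :=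
    { carrier := {T | q • T = 0}
      zero_mem' := nsmul_zero q
      add_mem' := fun {x y} hx hy => by
        show q • (x + y) = 0
        rw [nsmul_add, show q • x = 0 from hx, show q • y = 0 from hy, add_zero]
      neg_mem' := fun {x} hx => by
        show q • (-x) = 0
        rw [neg_nsmul, show q • x = 0 from hx, _root_.neg_zero] }
  have hVpmem : ∀ T, T ∈ Vp ↔ q • T = 0 := fun T => Iff.rfl
  have : Finite Vp := hfin.to_subtype
  have hVpcard : Nat.card Vp = q ^ 2 := by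
    rw [← hcard]
    have : Nat.card Vp = Nat.card {T : (L.toAffine⁄Qb).Point | q • T = 0} := rfl
    rw [this, Nat.card_coe_set_eq, Set.ncard_eq_toFinset_card _ hfin]
  -- the kernel-of-reduction part
  let V1 : AddSubgroup (L.toAffine⁄Qb).Point :=
    { carrier := kerTorsion v L q
      zero_mem' := ⟨nsmul_zero q, 1, one_pos, trivial⟩
      add_mem' := fun hx hy => kerTorsion_add hv hq hq2 hW ha hb hx hy
      neg_mem' := fun hx => kerTorsion_neg hv hq hq2 hW ha hb hx }
  have hV1le : V1 ≤ Vp := fun T hT => hT.1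
  have hNle : N ≤ Vp := fun T hT => hNV T hT
  have hNtop : N ≠ Vp := by
    obtain ⟨T, hT, hTN⟩ := htop
    intro h
    apply hTN
    rw [h]
    exact hT
  -- `V1 ≠ Vp`
  have hV1top : V1 ≠ Vp := by
    intro hEq
    have hall : ∀ T : (L.toAffine⁄Qb).Point, q • T = 0 → T ≠ 0 → v.Lt (xc T) 0 := by
      intro T hT hT0
      have : T ∈ V1 := by rw [hEq]; exact hT
      obtain ⟨_, τ, hτ, i⟩ := this
      have := le_of_inE i hT0
      exact ⟨this.1, by linarith [this.2]⟩
    have hB := hbound hall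
    set V := hfin.toFinset with hVdef
    have hVmem : ∀ T, T ∈ V ↔ q • T = 0 := fun T => by rw [hVdef, Set.Finite.mem_toFinset]; rfl
    -- the two Galois-stable pieces
    set SN := (V.erase 0).filter (fun T => T ∈ N) with hSN
    set SC := (V.erase 0).filter (fun T => T ∉ N) with hSC
    have hsum : ∑ T ∈ V.erase 0, (-(v.ord (xc T))) =
        ∑ T ∈ SN, (-(v.ord (xc T))) + ∑ T ∈ SC, (-(v.ord (xc T))) :=
      (Finset.sum_filter_add_sum_filter_not _ _ _).symm
    have hmemE : ∀ T, T ∈ V.erase 0 ↔ T ≠ 0 ∧ q • T = 0 := fun T => by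
      rw [Finset.mem_erase, hVmem]
    have hsmulE : ∀ σ : Qb ≃ₐ[ℚ] Qb, ∀ T ∈ V.erase 0, σ • T ∈ V.erase 0 := by
      intro σ T hT
      rw [hmemE] at hT ⊢
      refine ⟨fun h => hT.1 ((smul_eq_zero_iff' σ T).mp h), ?_⟩
      have := algEquiv_smul_zsmul σ (q : ℤ) T
      rw [natCast_zsmul, natCast_zsmul, hT.2] at this
      rw [← this]
      rfl
    have hnegE : ∀ T ∈ V.erase 0, -T ∈ V.erase 0 := by
      intro T hT
      rw [hmemE] at hT ⊢
      exact ⟨neg_ne_zero.mpr hT.1, by rw [neg_nsmul, hT.2, _root_.neg_zero]⟩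
    have h2torE : ∀ T ∈ V.erase 0, -T ≠ T := by
      intro T hT hneg
      rw [hmemE] at hT
      apply hT.1
      have h2T : 2 • T = 0 := by
        rw [two_smul]
        nth_rewrite 1 [← hneg]
        exact neg_add_cancel T
      obtain ⟨k, hk⟩ := Nat.odd_iff.mpr (Nat.two_dvd_ne_zero.mp hqodd)
      have : q • T = T := by
        rw [hk, add_smul, mul_smul, one_smul]
        rw [show (2 : ℕ) • k • T = k • (2 • T) from smul_comm 2 k T, h2T, nsmul_zero, zero_add]
      rw [← this]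
      exact hT.2
    have hkerE : ∀ T ∈ V.erase 0, v.Lt (xc T) 0 := by
      intro T hT
      rw [hmemE] at hT
      exact hall T hT.2 hT.1
    have hNiff : ∀ σ : Qb ≃ₐ[ℚ] Qb, ∀ T, σ • T ∈ N ↔ T ∈ N := by
      intro σ T
      constructor
      · intro h
        have := hstab σ⁻¹ _ h
        rwa [inv_smul_smul] at this
      · exact hstab σ T
    have hN2 : 2 ≤ ∑ T ∈ SN, (-(v.ord (xc T))) := by
      apply two_le_sum_depth hv hq hq1 hW SN
      · obtain ⟨⟨T, hT⟩, hT0'⟩ := (AddSubgroup.ne_bot_iff_exists_ne_zero.mp hbot)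
        have hT0 : T ≠ 0 := fun h => hT0' (Subtype.ext h)
        refine ⟨T, ?_⟩
        rw [hSN, Finset.mem_filter, hmemE]
        exact ⟨⟨hT0, hNV T hT⟩, hT⟩
      · intro σ T hT
        rw [hSN, Finset.mem_filter] at hT ⊢
        exact ⟨hsmulE σ T hT.1, (hNiff σ T).mpr hT.2⟩
      · intro T hT
        rw [hSN, Finset.mem_filter] at hT ⊢
        exact ⟨hnegE T hT.1, N.neg_mem hT.2⟩
      · intro T hT
        rw [hSN, Finset.mem_filter] at hT
        exact h2torE T hT.1
      · intro T hT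
        rw [hSN, Finset.mem_filter] at hT
        exact hkerE T hT.1
    have hC2 : 2 ≤ ∑ T ∈ SC, (-(v.ord (xc T))) := by
      apply two_le_sum_depth hv hq hq1 hW SC
      · obtain ⟨T, hT, hTN⟩ := htop
        refine ⟨T, ?_⟩
        rw [hSC, Finset.mem_filter, hmemE]
        refine ⟨⟨?_, hT⟩, hTN⟩
        intro h0
        rw [h0] at hTN
        exact hTN N.zero_mem
      · intro σ T hT
        rw [hSC, Finset.mem_filter] at hT ⊢
        exact ⟨hsmulE σ T hT.1, fun h => hT.2 ((hNiff σ T).mp h)⟩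
      · intro T hT
        rw [hSC, Finset.mem_filter] at hT ⊢
        refine ⟨hnegE T hT.1, fun h => hT.2 ?_⟩
        have := N.neg_mem h
        rwa [neg_neg] at this
      · intro T hT
        rw [hSC, Finset.mem_filter] at hT
        exact h2torE T hT.1
      · intro T hT
        rw [hSC, Finset.mem_filter] at hT
        exact hkerE T hT.1
    rw [hsum] at hB
    linarith
  -- conclude
  rcases subgroup_dichotomy hq Vp N V1 hVpcard hNle hV1le hbot hNtop hV1top with h | h
  · left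
    intro σ hσ y hy
    obtain ⟨τ, hτ, i⟩ := hP1 σ hσ y (hNV y hy)
    have h1 : σ • y - y ∈ N := N.sub_mem (hstab σ y hy) hy
    have hqy : q • (σ • y - y) = 0 := hNV _ h1
    have h2' : σ • y - y ∈ V1 := ⟨hqy, τ, hτ, i⟩
    have : σ • y - y ∈ N ⊓ V1 := ⟨h1, h2'⟩
    rw [h] at this
    exact sub_eq_zero.mp ((AddSubgroup.mem_bot).mp this)
  · right
    intro σ hσ x hx
    obtain ⟨τ, hτ, i⟩ := hP1 σ hσ x hx
    have hσx : q • (σ • x) = 0 := by
      have := algEquiv_smul_zsmul σ (q : ℤ) x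
      rw [natCast_zsmul, natCast_zsmul, hx] at this
      rw [← this]
      rfl
    have : σ • x - x ∈ V1 := ⟨by rw [nsmul_sub, hσx, hx, sub_zero], τ, hτ, i⟩
    rw [h] at this
    exact this

end dich

end Fermat.Agent.S13Lib
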