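/-
P7 / S13, KW-lite, part 1 (pure algebra): **tame inertia is cyclic**.

`R` a Dedekind domain with a faithful action of a finite group `G`, `P ≠ ⊥` a prime of `R`
containing the rational prime `p`.  The inertia group `P.inertia G` acts on the cotangent line
`P / P²` through a character `tameChar : P.inertia G →* R ⧸ P`, whose kernel consists of elements of
`p`-power order.  Hence if `p ∤ |P.inertia G|` the inertia group embeds into the multiplicative
group of the field `R ⧸ P` and is cyclic (`isCyclic_inertia_of_coprime`).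
-/
import Mathlib

set_option autoImplicit false
set_option linter.unusedSectionVars false

namespace Fermat.Agent.S13Lib

open Ideal

section Shift

variable {R : Type*} [CommRing R] {G : Type*} [Group G] [MulSemiringAction G R]
variable (P : Ideal R)

/-- `σ` moves every element of `P ^ i` by an element of `P ^ (i + m)`. -/
def Shift (σ : G) (m : ℕ) : Prop := ∀ (i : ℕ) (x : R), x ∈ P ^ i → σ • x - x ∈ P ^ (i + m)

variable {P}

lemma Shift.smul_mem {σ : G} {m : ℕ} (h : Shift P σ m) {i : ℕ} {x : R} (hx : x ∈ P ^ i) :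
    σ • x ∈ P ^ i := by
  have h1 := h i x hx
  have h2 : σ • x - x ∈ P ^ i := Ideal.pow_le_pow_right (Nat.le_add_right i m) h1
  have h3 := (P ^ i).add_mem h2 hx
  simpa using h3

lemma Shift.pow {σ : G} {m : ℕ} (h : Shift P σ m) (k : ℕ) : Shift P (σ ^ k) m := by
  induction k with
  | zero =>
    intro i x _
    simp
  | succ k ih =>
    intro i x hx
    have h1 : σ ^ (k + 1) • x - x = (σ • (σ ^ k • x) - σ ^ k • x) + (σ ^ k • x - x) := by
      rw [pow_succ', mul_smul]; ring
    rw [h1]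
    exact (P ^ (i + m)).add_mem (h i _ (ih.smul_mem hx)) (ih i x hx)

lemma Shift.pow_sub_nsmul {σ : G} {m : ℕ} (h : Shift P σ m) (k : ℕ) (i : ℕ) (x : R)
    (hx : x ∈ P ^ i) : σ ^ k • x - x - k • (σ • x - x) ∈ P ^ (i + 2 * m) := by
  induction k with
  | zero => simp
  | succ k ih =>
    have hy : σ ^ k • x - x ∈ P ^ (i + m) := h.pow k i x hx
    have h1 := h (i + m) _ hy
    have h2 : σ ^ (k + 1) • x - x - (k + 1) • (σ • x - x) =
        (σ • (σ ^ k • x - x) - (σ ^ k • x - x)) + (σ ^ k • x - x - k • (σ • x - x)) := by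
      rw [pow_succ', mul_smul, smul_sub σ (σ ^ k • x) x, succ_nsmul]; ring
    rw [h2]
    refine (P ^ (i + 2 * m)).add_mem ?_ ih
    have : i + m + m = i + 2 * m := by ring
    rwa [this] at h1

/-- raising to the `p`-th power improves the shift by one, if `p ∈ P` -/
lemma Shift.pow_prime {σ : G} {m : ℕ} (h : Shift P σ m) (hm : 1 ≤ m) {p : ℕ} (hp : (p : R) ∈ P) :
    Shift P (σ ^ p) (m + 1) := by
  intro i x hx
  have h1 := h.pow_sub_nsmul p i x hx
  have h2 : P ^ (i + 2 * m) ≤ P ^ (i + (m + 1)) := Ideal.pow_le_pow_right (by omega)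
  have h3 : p • (σ • x - x) ∈ P ^ (i + (m + 1)) := by
    rw [nsmul_eq_mul, ← add_assoc, pow_succ', ]
    exact Ideal.mul_mem_mul hp (h i x hx)
  have h4 := (P ^ (i + (m + 1))).add_mem (h2 h1) h3
  simpa using h4

lemma Shift.pow_prime_pow {σ : G} (h : Shift P σ 1) {p : ℕ} (hp : (p : R) ∈ P) (k : ℕ) :
    Shift P (σ ^ p ^ k) (k + 1) := by
  induction k with
  | zero => simpa using h
  | succ k ih =>
    have := ih.pow_prime (by omega) hp
    rwa [← pow_mul, ← pow_succ] at this

end Shift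

section Tame

variable {R : Type*} [CommRing R] [IsDedekindDomain R]
variable {G : Type*} [Group G] [MulSemiringAction G R]
variable {P : Ideal R}

lemma smul_mem_of_mem_inertia {σ : G} (hσ : σ ∈ P.inertia G) {x : R} (hx : x ∈ P) : σ • x ∈ P := by
  have h2 := P.add_mem (hσ x) hx
  simpa using h2

lemma smul_mem_pow_of_mem_inertia {σ : G} (hσ : σ ∈ P.inertia G) (n : ℕ) {x : R}
    (hx : x ∈ P ^ n) : σ • x ∈ P ^ n := by
  have h1 : (P ^ n).map (MulSemiringAction.toRingHom G R σ) ≤ P ^ n := by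
    rw [Ideal.map_pow]
    refine Ideal.pow_right_mono (Ideal.map_le_iff_le_comap.2 fun y hy => ?_) n
    rw [Ideal.mem_comap]
    exact smul_mem_of_mem_inertia hσ hy
  exact h1 (Ideal.mem_map_of_mem _ hx)

variable [hPp : P.IsPrime]

/-- if `σ` fixes a uniformiser modulo `P²`, it moves every element of `P` by an element of `P²` -/
lemma smul_sub_mem_sq_of_uniformizer (hP : P ≠ ⊥) {σ : G} (hσ : σ ∈ P.inertia G) {π : R}
    (hπ : π ∈ P) (hπ2 : π ∉ P ^ 2) (h : σ • π - π ∈ P ^ 2) {x : R} (hx : x ∈ P) :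
    σ • x - x ∈ P ^ 2 := by
  obtain ⟨d, e, he, rfl⟩ := Ideal.exists_mul_add_mem_pow_succ (i := 1) hP π x (by simpa using hπ)
    (by simpa using hπ2) (by simpa using hx)
  have he' : e ∈ P ^ 2 := by simpa using he
  have h1 : σ • (π * d + e) - (π * d + e) =
      (σ • π - π) * σ • d + π * (σ • d - d) + (σ • e - e) := by
    rw [smul_add, smul_mul']; ring
  rw [h1]
  refine (P ^ 2).add_mem ((P ^ 2).add_mem ((P ^ 2).mul_mem_right _ h) ?_)
    ((P ^ 2).sub_mem (smul_mem_pow_of_mem_inertia hσ 2 he') he')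
  rw [pow_two]
  exact Ideal.mul_mem_mul hπ (hσ d)

lemma shift_one_of_uniformizer (hP : P ≠ ⊥) {σ : G} (hσ : σ ∈ P.inertia G) {π : R}
    (hπ : π ∈ P) (hπ2 : π ∉ P ^ 2) (h : σ • π - π ∈ P ^ 2) : Shift P σ 1 := by
  intro i
  induction i with
  | zero =>
    intro x _
    simpa using hσ x
  | succ i ih =>
    intro x hx
    rw [pow_succ] at hx
    refine Submodule.mul_induction_on hx ?_ ?_
    · intro a ha b hb
      have h1 : σ • (a * b) - a * b = (σ • a - a) * σ • b + a * (σ • b - b) := by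
        rw [smul_mul']; ring
      rw [h1]
      refine (P ^ (i + 1 + 1)).add_mem ?_ ?_
      · rw [pow_succ (n := i + 1)]
        exact Ideal.mul_mem_mul (ih a ha) (smul_mem_of_mem_inertia hσ hb)
      · have h2 := smul_sub_mem_sq_of_uniformizer hP hσ hπ hπ2 h hb
        have h3 : P ^ (i + 1 + 1) = P ^ i * P ^ 2 := by rw [← pow_add]
        rw [h3]
        exact Ideal.mul_mem_mul ha h2
    · intro a b ha hb
      have h1 : σ • (a + b) - (a + b) = (σ • a - a) + (σ • b - b) := by
        rw [smul_add]; ring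
      rw [h1]
      exact (P ^ (i + 1 + 1)).add_mem ha hb

/-- an element of order prime to `p` which shifts by one acts trivially -/
lemma smul_eq_of_shift_one {σ : G} (h : Shift P σ 1) {p : ℕ} (hp : (p : R) ∈ P) {n : ℕ}
    (hn : σ ^ n = 1) (hcop : Nat.Coprime p n) (x : R) : σ • x = x := by
  have hn0 : n ≠ 0 := by
    rintro rfl
    have hp1 : p = 1 := by simpa using hcop
    rw [hp1] at hp
    exact hPp.ne_top ((Ideal.eq_top_iff_one P).2 (by simpa using hp))
  have key : ∀ k : ℕ, σ • x - x ∈ P ^ k := by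
    intro k
    -- `p ^ (k * φ n) ≡ 1 mod n`
    have h1 : p ^ (k * Nat.totient n) ≡ 1 [MOD n] := by
      rw [mul_comm, pow_mul]
      have := (Nat.ModEq.pow_totient hcop).pow k
      simpa using this
    have h2 : σ ^ p ^ (k * Nat.totient n) = σ := by
      have h3 : (p ^ (k * Nat.totient n)) % n = 1 % n := h1
      have h4 := pow_mod_orderOf σ (p ^ (k * Nat.totient n))
      have hdvd : orderOf σ ∣ n := orderOf_dvd_of_pow_eq_one hn
      have h5 : p ^ (k * Nat.totient n) ≡ 1 [MOD orderOf σ] := h1.of_dvd hdvd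
      rw [← pow_mod_orderOf, h5, pow_mod_orderOf, pow_one]
    have h6 := h.pow_prime_pow hp (k * Nat.totient n) 0 x (by simp)
    rw [h2, zero_add] at h6
    have hφ : 1 ≤ Nat.totient n := Nat.totient_pos.2 (Nat.pos_of_ne_zero hn0)
    exact Ideal.pow_le_pow_right (by nlinarith) h6
  have h7 : σ • x - x ∈ (⨅ k : ℕ, P ^ k : Ideal R) := by
    rw [Ideal.mem_iInf]
    exact key
  rw [Ideal.iInf_pow_eq_bot_of_isDomain P hPp.ne_top, Ideal.mem_bot, sub_eq_zero] at h7
  exact h7

/-! ### The tame character -/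

/-- `d` represents the action of `σ` on the cotangent line `P / P²` with respect to `π` -/
def IsTameCoeff (P : Ideal R) (π : R) (σ : G) (d : R) : Prop := σ • π - π * d ∈ P ^ 2

lemma exists_isTameCoeff (hP : P ≠ ⊥) {π : R} (hπ : π ∈ P) (hπ2 : π ∉ P ^ 2) {σ : G}
    (hσ : σ ∈ P.inertia G) : ∃ d : R, IsTameCoeff P π σ d := by
  obtain ⟨d, e, he, h⟩ := Ideal.exists_mul_add_mem_pow_succ (i := 1) hP π (σ • π)
    (by simpa using hπ) (by simpa using hπ2) (by simpa using smul_mem_of_mem_inertia hσ hπ)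
  refine ⟨d, ?_⟩
  have : σ • π - π * d = e := by rw [← h]; ring
  rw [IsTameCoeff, this]
  simpa using he

lemma IsTameCoeff.sub_mem (hP : P ≠ ⊥) {π : R} (hπ2 : π ∉ P ^ 2) {σ : G} {d d' : R}
    (h : IsTameCoeff P π σ d) (h' : IsTameCoeff P π σ d') : d - d' ∈ P := by
  have h1 : π * (d' - d) ∈ P ^ (1 + 1) := by
    have := (P ^ 2).sub_mem h h'
    have h2 : σ • π - π * d - (σ • π - π * d') = π * (d' - d) := by ring
    rwa [h2] at this
  have h3 := Ideal.mem_prime_of_mul_mem_pow hP (i := 1) (by simpa using hπ2) h1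
  have h4 : d - d' = -(d' - d) := by ring
  rw [h4]
  exact P.neg_mem h3

lemma IsTameCoeff.of_sub_mem {π : R} (hπ : π ∈ P) {σ : G} {d d' : R}
    (h : IsTameCoeff P π σ d) (h' : d - d' ∈ P) : IsTameCoeff P π σ d' := by
  have h1 : σ • π - π * d' = (σ • π - π * d) + π * (d - d') := by ring
  rw [IsTameCoeff, h1]
  refine (P ^ 2).add_mem h ?_
  rw [pow_two]
  exact Ideal.mul_mem_mul hπ h'

lemma isTameCoeff_one (π : R) : IsTameCoeff P π (1 : G) 1 := by
  simp [IsTameCoeff]

lemma IsTameCoeff.mul {π : R} (hπ : π ∈ P) {σ τ : G} (hσ : σ ∈ P.inertia G) {d d' : R}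
    (h : IsTameCoeff P π σ d) (h' : IsTameCoeff P π τ d') : IsTameCoeff P π (σ * τ) (d * d') := by
  have h1 : (σ * τ) • π - π * (d * d') =
      σ • (τ • π - π * d') + (σ • π - π * d) * σ • d' + π * d * (σ • d' - d') := by
    rw [mul_smul, smul_sub, smul_mul']; ring
  rw [IsTameCoeff, h1]
  refine (P ^ 2).add_mem ((P ^ 2).add_mem (smul_mem_pow_of_mem_inertia hσ 2 h')
    ((P ^ 2).mul_mem_right _ h)) ?_
  rw [pow_two, mul_assoc]
  exact Ideal.mul_mem_mul hπ (P.mul_mem_left _ (hσ d'))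

variable (P) in
/-- the tame character of the inertia group (with respect to the uniformiser `π`) -/
noncomputable def tameChar (hP : P ≠ ⊥) (π : R) (hπ : π ∈ P) (hπ2 : π ∉ P ^ 2) :
    ↥(P.inertia G) →* R ⧸ P where
  toFun σ := Ideal.Quotient.mk P (exists_isTameCoeff hP hπ hπ2 σ.2).choose
  map_one' := by
    rw [← map_one (Ideal.Quotient.mk P), Ideal.Quotient.eq]
    exact IsTameCoeff.sub_mem hP hπ2 (exists_isTameCoeff hP hπ hπ2 (1 : ↥(P.inertia G)).2).choose_spec
      (isTameCoeff_one π)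
  map_mul' σ τ := by
    rw [← map_mul (Ideal.Quotient.mk P), Ideal.Quotient.eq]
    exact IsTameCoeff.sub_mem hP hπ2
      (exists_isTameCoeff hP hπ hπ2 (σ * τ).2).choose_spec
      (IsTameCoeff.mul hπ σ.2 (exists_isTameCoeff hP hπ hπ2 σ.2).choose_spec
        (exists_isTameCoeff hP hπ hπ2 τ.2).choose_spec)

lemma tameChar_eq_one_iff (hP : P ≠ ⊥) (π : R) (hπ : π ∈ P) (hπ2 : π ∉ P ^ 2)
    (σ : ↥(P.inertia G)) :
    tameChar P hP π hπ hπ2 σ = 1 ↔ (σ : G) • π - π ∈ P ^ 2 := by
  have hspec := (exists_isTameCoeff hP hπ hπ2 σ.2).choose_spec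
  change Ideal.Quotient.mk P (exists_isTameCoeff hP hπ hπ2 σ.2).choose = 1 ↔ _
  rw [← map_one (Ideal.Quotient.mk P), Ideal.Quotient.eq]
  constructor
  · intro h
    have := hspec.of_sub_mem hπ h
    simpa [IsTameCoeff] using this
  · intro h
    refine IsTameCoeff.sub_mem hP hπ2 hspec ?_
    simpa [IsTameCoeff] using h

/-- **Tame inertia embeds into the residue field**: the tame character is injective if the order of
the inertia group is prime to the residue characteristic. -/
theorem tameChar_injective [Finite G] [FaithfulSMul G R] (hP : P ≠ ⊥) (π : R) (hπ : π ∈ P)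
    (hπ2 : π ∉ P ^ 2) {p : ℕ} (hp : (p : R) ∈ P)
    (hcop : Nat.Coprime p (Nat.card (P.inertia G))) :
    Function.Injective (tameChar P hP π hπ hπ2 : ↥(P.inertia G) →* R ⧸ P) := by
  rw [injective_iff_map_eq_one]
  intro σ hσ
  rw [tameChar_eq_one_iff] at hσ
  have h1 := shift_one_of_uniformizer hP σ.2 hπ hπ2 hσ
  have h2 : (σ : G) ^ Nat.card (P.inertia G) = 1 := by
    have := pow_card_eq_one' (G := ↥(P.inertia G)) (x := σ)
    exact_mod_cast congrArg Subtype.val this
  have h3 : (σ : G) = 1 := by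
    apply FaithfulSMul.eq_of_smul_eq_smul (α := R)
    intro x
    rw [one_smul]
    exact smul_eq_of_shift_one h1 hp h2 hcop x
  exact Subtype.ext h3

/-- **Tame inertia is cyclic.** -/
theorem isCyclic_inertia_of_coprime [Finite G] [FaithfulSMul G R] (hP : P ≠ ⊥) {p : ℕ}
    (hp : (p : R) ∈ P) (hcop : Nat.Coprime p (Nat.card (P.inertia G))) :
    IsCyclic ↥(P.inertia G) := by
  obtain ⟨π, hπ, hπ2⟩ := SetLike.exists_of_lt (Ideal.pow_succ_lt_pow hP 1)
  rw [pow_one] at hπ
  have : IsDomain (R ⧸ P) := Ideal.Quotient.isDomain P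
  exact isCyclic_of_injective_ringHom (tameChar P hP π hπ hπ2)
    (tameChar_injective hP π hπ hπ2 hp hcop)

end Tame

end Fermat.Agent.S13Lib
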